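import Fermat.Agent.TW.Euler.Base.Defs

/-!
# GW-Euler, base case: node contracts and the assembly of `BaseCharOut`

Notation: `X_φ := baseMod N D φ`, `θ := dualChar N hζ D ψ = ψ⁻¹ · ω̄`, `d = [k' : 𝔽_p]`.

* `H2FormulaOut` (H2F): `h²(M) + h⁰(M') = dim Ш¹_T(M') + Σ_{ℓ ∈ T} h⁰_ℓ(M')`, `M' ≅ M^∨(1)`
  (S55 + (B2)-hard + local `dual2`);
* `ArchOut`: `hInf M + hInf M^∨(1) = dim M` (`p` odd);
* `DualOut` (DUAL): `X_θ ≅ (X_ψ)^∨(1)`;
* `ArithNodesOut`: there is a predicate `CT p T N` ("`Cl_T(K_N)/p = 0`") which can be achieved by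
  enlarging `T`, under which (H1-ID) `h¹(X_ψ) + h⁰(X_θ) = h⁰(X_ψ) + Σ_{ℓ ∈ T} h⁰_ℓ(X_θ) + hInf X_θ`
  and (SHA-VAN) `Ш¹_T(X_θ) = 0` hold;
* `EnlargeOut` (4a): the Euler defect of `X_φ` does not depend on `T`.

`baseCharOut_of_nodes` derives `BaseCharOut` from these.
-/

set_option autoImplicit false

open CategoryTheory Module ExtCitation
open Fermat.Agent.CFT Fermat.Agent.S55

namespace Fermat.Agent.TW.Euler

local notation "Qb" => AlgebraicClosure ℚ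
local notation "GQ" => (AlgebraicClosure ℚ ≃ₐ[ℚ] AlgebraicClosure ℚ)

section Defs

variable {p : ℕ} [Fact p.Prime]

/-- `dim_{𝔽_p} H⁰(G_ℓ, M)`. -/
noncomputable def h0Loc (ℓ : Nat.Primes) (M : Rep (ZMod p) GQ) : ℕ :=
  finrank (ZMod p) (Rep.res (primeLocalToGlobal ℓ) M).ρ.invariants

/-- The mod `p` cyclotomic character of `Ḡ = GQ ⧸ N`, `N` fixing `μ_p`. -/
noncomputable def omegaBar (N : Subgroup GQ) [N.Normal]
    (hζ : ∀ g ∈ N, ∀ ζ : Qb, ζ ^ p = 1 → g ζ = ζ) : (GQ ⧸ N) →* (ZMod p)ˣ :=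
  QuotientGroup.lift N (cycloChar p) fun g hg =>
    (cycloChar_eq_one_iff p g).2 (hζ g hg)

/-- The dual character `θ = ψ⁻¹ · ω̄` of a character `ψ` of `D ≤ Ḡ`. -/
noncomputable def dualChar (N : Subgroup GQ) [N.Normal]
    (hζ : ∀ g ∈ N, ∀ ζ : Qb, ζ ^ p = 1 → g ζ = ζ) (D : Subgroup (GQ ⧸ N)) {k' : Type} [Field k']
    [Algebra (ZMod p) k'] (ψ : D →* k'ˣ) : D →* k'ˣ :=
  ψ⁻¹ * (Units.map (algebraMap (ZMod p) k' : ZMod p →* k')).comp
    ((omegaBar N hζ).comp D.subtype)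

end Defs

/-- **(H2F)** the `H²`-formula. -/
def H2FormulaOut : Prop :=
  ∀ (p : ℕ) [Fact p.Prime], p ≠ 2 → ∀ (T : Finset Nat.Primes), pPrime p ∈ T →
    ∀ (M M' : Rep.{0} (ZMod p) GQ) [FiniteDimensional (ZMod p) M] [FiniteDimensional (ZMod p) M']
      (hM : IsSmooth (globalLevel T) M) (hM' : IsSmooth (globalLevel T) M'),
      Nonempty (M' ≅ M.dualTwist (cycloChar p)) →
      hG hM 2 + hG hM' 0 = finrank (ZMod p) (shaLC₁ T M') + ∑ ℓ ∈ T, h0Loc ℓ M'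

/-- **(ARCH)** `hInf M + hInf M^∨(1) = dim M`. -/
def ArchOut : Prop :=
  ∀ (p : ℕ) [Fact p.Prime], p ≠ 2 →
    ∀ (M M' : Rep.{0} (ZMod p) GQ) [FiniteDimensional (ZMod p) M],
      Nonempty (M' ≅ M.dualTwist (cycloChar p)) → hInf M + hInf M' = finrank (ZMod p) M

/-- **(DUAL)** `X_θ ≅ (X_ψ)^∨(1)`. -/
def DualOut : Prop :=
  ∀ (p : ℕ) [Fact p.Prime], p ≠ 2 →
    ∀ (N : Subgroup GQ) [N.Normal] [N.FiniteIndex]
      (hζ : ∀ g ∈ N, ∀ ζ : Qb, ζ ^ p = 1 → g ζ = ζ) (D : Subgroup (GQ ⧸ N))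
      (k' : Type) [Field k'] [Finite k'] [Algebra (ZMod p) k'] (ψ : D →* k'ˣ),
      Nonempty (baseMod (p := p) N D (dualChar N hζ D ψ) ≅
        (baseMod (p := p) N D ψ).dualTwist (cycloChar p))

/-- **(KUM) + (4d) + (PL) + (MACKEY)**: the arithmetic nodes of the base case. -/
def ArithNodesOut : Prop :=
  ∃ CT : ℕ → Finset Nat.Primes → Subgroup GQ → Prop,
    (∀ (p : ℕ) [Fact p.Prime] (T : Finset Nat.Primes) (N : Subgroup GQ),
      (globalLevel T).IsLevel N → ∃ T' : Finset Nat.Primes, T ⊆ T' ∧ CT p T' N) ∧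
    ∀ (p : ℕ) [Fact p.Prime], p ≠ 2 → ∀ (T : Finset Nat.Primes), pPrime p ∈ T →
      ∀ (N : Subgroup GQ) [N.Normal] (hN : (globalLevel T).IsLevel N)
        (hζ : ∀ g ∈ N, ∀ ζ : Qb, ζ ^ p = 1 → g ζ = ζ), CT p T N →
      ∀ (D : Subgroup (GQ ⧸ N)), IsCyclic D → ¬ p ∣ Nat.card D →
      ∀ (k' : Type) [Field k'] [Finite k'] [Algebra (ZMod p) k'] (ψ : D →* k'ˣ),
        (hG (isSmooth_baseMod (p := p) N D hN ψ) 1 +
            hG (isSmooth_baseMod (p := p) N D hN (dualChar N hζ D ψ)) 0 =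
          hG (isSmooth_baseMod (p := p) N D hN ψ) 0 +
            ∑ ℓ ∈ T, h0Loc ℓ (baseMod (p := p) N D (dualChar N hζ D ψ)) +
            hInf (baseMod (p := p) N D (dualChar N hζ D ψ))) ∧
        finrank (ZMod p) (shaLC₁ T (baseMod (p := p) N D (dualChar N hζ D ψ))) = 0

/-- **(4a)** the Euler defect of `X_φ` is independent of `T`. -/
def EnlargeOut : Prop :=
  ∀ (p : ℕ) [Fact p.Prime], p ≠ 2 → ∀ (T T' : Finset Nat.Primes), pPrime p ∈ T → T ⊆ T' →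
    ∀ (N : Subgroup GQ) [N.Normal] (hN : (globalLevel T).IsLevel N)
      (hN' : (globalLevel T').IsLevel N),
      (∀ g ∈ N, ∀ ζ : Qb, ζ ^ p = 1 → g ζ = ζ) →
      ∀ (D : Subgroup (GQ ⧸ N)), IsCyclic D → ¬ p ∣ Nat.card D →
      ∀ (k' : Type) [Field k'] [Finite k'] [Algebra (ZMod p) k'] (φ : D →* k'ˣ),
        eulerDefect (isSmooth_baseMod (p := p) N D hN φ) =
          eulerDefect (isSmooth_baseMod (p := p) N D hN' φ)

section Assembly

/-- A level of `globalLevel T` is a level of `globalLevel T'` for `T ⊆ T'`. -/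
theorem isLevel_mono {T T' : Finset Nat.Primes} (h : T ⊆ T') {N : Subgroup GQ}
    (hN : (globalLevel T).IsLevel N) : (globalLevel T').IsLevel N := by
  obtain ⟨F, hgal, hF, rfl⟩ := hN
  exact ⟨F, hgal, hF.mono h, rfl⟩

instance finite_coindV_chiRep {p : ℕ} [Fact p.Prime] {G : Type} [Group G] [Finite G]
    (D : Subgroup G) {k' : Type} [Field k'] [Finite k'] [Algebra (ZMod p) k'] (φ : D →* k'ˣ) :
    Module.Finite (ZMod p) (Representation.coindV D.subtype (chiRep (p := p) φ)) :=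
  inferInstance

/-- **The base case for characters from its nodes.** -/
theorem baseCharOut_of_nodes (hH2F : H2FormulaOut) (harch : ArchOut) (hdual : DualOut)
    (harith : ArithNodesOut) (henl : EnlargeOut) : BaseCharOut := by
  obtain ⟨CT, hex, hnodes⟩ := harith
  intro p _ hp2 T hpT N _ hN hζ D hD hpD k' _ _ _ ψ
  obtain ⟨T', hTT', hCT⟩ := hex p T N hN
  have hN' : (globalLevel T').IsLevel N := isLevel_mono hTT' hN
  have hpT' : pPrime p ∈ T' := hTT' hpT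
  rw [henl p hp2 T T' hpT hTT' N hN hN' hζ D hD hpD k' ψ]
  have : N.FiniteIndex := (globalLevel T).finiteIndex hN
  have : Finite (GQ ⧸ N) := Subgroup.finite_quotient_of_finiteIndex
  obtain ⟨h1, hsha⟩ := hnodes p hp2 T' hpT' N hN' hζ hCT D hD hpD k' ψ
  have e := hdual p hp2 N hζ D k' ψ
  have fin1 : Module.Finite (ZMod p) (baseMod (p := p) N D ψ) :=
    inferInstanceAs (Module.Finite (ZMod p) (Representation.coindV D.subtype (chiRep (p := p) ψ)))
  have fin2 : Module.Finite (ZMod p) (baseMod (p := p) N D (dualChar N hζ D ψ)) :=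
    inferInstanceAs (Module.Finite (ZMod p) (Representation.coindV D.subtype (chiRep (p := p) (dualChar N hζ D ψ))))
  have h2 := hH2F p hp2 T' hpT' (baseMod (p := p) N D ψ) (baseMod (p := p) N D (dualChar N hζ D ψ))
    (isSmooth_baseMod N D hN' ψ) (isSmooth_baseMod N D hN' (dualChar N hζ D ψ)) e
  have h3 := harch p hp2 (baseMod (p := p) N D ψ) (baseMod (p := p) N D (dualChar N hζ D ψ)) e
  unfold eulerDefect
  omega

end Assembly

end Fermat.Agent.TW.Euler
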