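import Mathlib
import Fermat.Agent.CFT.Global.KummerLocal
import Fermat.Agent.CFT.Global.KummerGlobalPow
import Fermat.Agent.CFT.Global.FirstIneqUncond
import Fermat.Agent.CFT.Global.ExistenceModPGen

/-!
# Program G, block EU-4c: vanishing of the Kummer part of `Ш¹` from the first inequality

`K` a number field containing `μ_p` (`p` odd), `T ∋ p` a set of rational primes with
`J_K = Kˣ · J_{K,T} · J_K^p` (i.e. `Cl_T(K)/p = 0`).  An `x ∈ Kˣ` which is a local `p`-th power at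
the primes of `T` and has `p ∣ v_w(x)` at all places `w` outside `T` is a `p`-th power in `K`.

Vocabulary: main's idele model `CFT/Global/IdeleDefs` (rational-prime indexed semi-local units,
embeddings `τ : K →+* ℚ̄_q`, `localFieldAt τ = K_w`).

* `exists_local_norm_of_kummer_val` : the local Kummer norm fact in the case `q ≠ p`,
  `p ∣ v(a)`, `|u| = 1` (generalising case (ii) of `KummerLocal.exists_local_norm_of_kummer`);
* `exists_prod_smul_eq_of_kummer_val`, `mem_ideleNormSubgroup_of_kummer_val` : semi-local and idele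
  forms of the resulting trichotomy;
* `exists_pow_eq_of_local_pow_of_classT` : **EU-4c**.
-/

set_option autoImplicit false
set_option linter.unusedSectionVars false
set_option linter.style.haveILetI false
set_option linter.unusedVariables false

noncomputable section

namespace Fermat.Agent.TW.Euler.Base

open Fermat.Agent.CFT Fermat.Agent.CFT.KummerLocal Fermat.Agent.CFT.GaloisTower Polynomial
  Fermat.Agent.CFT.IdeleDict

section Local

variable {q : ℕ} [Fact q.Prime]

local notation "Ω" => PadicAlgCl q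

variable (K : Type) [Field K] {L : Type} [Field L] [Algebra K L] [Normal K L]

/-- The local Kummer norm fact when `q ≠ p` and `a` is a unit times a `p`-th power locally. -/
theorem exists_local_norm_of_kummer_val [NumberField L] [FiniteDimensional K L]
    [IsGalois K L] {p : ℕ} (hp : p.Prime) (hrank : Module.finrank K L = p) {ζ : K}
    (hζ : IsPrimitiveRoot ζ p) {a : K} (ha0 : a ≠ 0) {α : L} (hα : α ^ p = algebraMap K L a)
    (hgen : IntermediateField.adjoin K {α} = ⊤) (τ' : LocalEmb q L) (u : Ωˣ)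
    (hu : (u : Ω) ∈ localFieldAt (localEmbRestrict K τ'))
    (hqp : q ≠ p)
    (hc : ∃ c ∈ localFieldAt (localEmbRestrict K τ'), ‖localEmbRestrict K τ' a‖ = ‖c‖ ^ p)
    (hu1 : ‖(u : Ω)‖ = 1) :
    ∃ (s : Ωˣ) (hs : (s : Ω) ∈ localFieldAt τ'),
      ((Algebra.norm (localFieldAt (localEmbRestrict K τ'))
        (⟨(s : Ω), hs⟩ : localLayer K τ') : localFieldAt (localEmbRestrict K τ')) : Ω) = (u : Ω) ∧
      (‖(u : Ω)‖ = 1 → ‖(s : Ω)‖ = 1) := by
  obtain ⟨c, hcE, hcn⟩ := hc
  haveI := finiteDimensional_localFieldAt τ'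
  haveI := isGalois_localLayer K τ'
  have hτa0 : localEmbRestrict K τ' a ≠ 0 := by
    intro h0
    exact ha0 ((map_eq_zero _).mp h0)
  have hc0 : c ≠ 0 := by
    rintro rfl
    rw [norm_zero, zero_pow hp.ne_zero, norm_eq_zero] at hcn
    exact hτa0 hcn
  have hζ' : IsPrimitiveRoot
      (⟨localEmbRestrict K τ' ζ, apply_mem_localFieldAt _ ζ⟩ :
        localFieldAt (localEmbRestrict K τ')) p := by
    apply IsPrimitiveRoot.of_map_of_injective
      (f := algebraMap (localFieldAt (localEmbRestrict K τ')) Ω) ?_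
      (algebraMap (localFieldAt (localEmbRestrict K τ')) Ω).injective
    exact hζ.map_of_injective (localEmbRestrict K τ').injective
  -- the modified generator `β' = β / c`
  let cE : localFieldAt (localEmbRestrict K τ') := ⟨c, hcE⟩
  have hcE0 : cE ≠ 0 := fun h => hc0 (congrArg Subtype.val h)
  let β : localLayer K τ' := ⟨τ' α, apply_mem_localFieldAt τ' α⟩
  let aE : localFieldAt (localEmbRestrict K τ') :=
    ⟨localEmbRestrict K τ' a, apply_mem_localFieldAt _ a⟩
  have hβ : β ^ p = algebraMap (localFieldAt (localEmbRestrict K τ')) (localLayer K τ') aE := by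
    apply Subtype.ext
    show (τ' α) ^ p = τ' (algebraMap K L a)
    rw [← map_pow, hα]
  let β' : localLayer K τ' :=
    β * (algebraMap (localFieldAt (localEmbRestrict K τ')) (localLayer K τ') cE)⁻¹
  let b : localFieldAt (localEmbRestrict K τ') := aE * (cE ^ p)⁻¹
  have hβ' : β' ^ p = algebraMap (localFieldAt (localEmbRestrict K τ')) (localLayer K τ') b := by
    simp only [β', b, mul_pow, inv_pow, hβ, map_mul, map_inv₀, map_pow]
  have hb : ‖((b : localFieldAt (localEmbRestrict K τ')) : Ω)‖ = 1 := by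
    have : ((b : localFieldAt (localEmbRestrict K τ')) : Ω) =
        localEmbRestrict K τ' a * (c ^ p)⁻¹ := rfl
    rw [this, norm_mul, norm_inv, norm_pow, hcn]
    have hcn0 : ‖c‖ ^ p ≠ 0 := pow_ne_zero _ (norm_ne_zero_iff.mpr hc0)
    exact mul_inv_cancel₀ hcn0
  have htop : IntermediateField.adjoin (localFieldAt (localEmbRestrict K τ')) {β'} = ⊤ := by
    rw [eq_top_iff, ← adjoin_localLayer_eq_top K hgen τ']
    rw [IntermediateField.adjoin_le_iff]
    rintro y hy
    rw [Set.mem_singleton_iff] at hy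
    have hy' : y = β' * algebraMap (localFieldAt (localEmbRestrict K τ')) (localLayer K τ') cE := by
      rw [hy]
      simp only [β']
      rw [mul_assoc, inv_mul_cancel₀, mul_one]
      exact (_root_.map_ne_zero _).mpr hcE0
    rw [hy']
    exact mul_mem (IntermediateField.mem_adjoin_simple_self _ _)
      (IntermediateField.algebraMap_mem _ _)
  obtain ⟨s, hs1, hsn⟩ := exists_norm_eq_of_unit_root (localFieldAt_restrict_le K τ') hp
    (Ne.symm hqp) hζ' hβ' hb htop
    (u := (⟨(u : Ω), hu⟩ : localFieldAt (localEmbRestrict K τ'))) hu1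
  have hs0 : (s : Ω) ≠ 0 := by
    intro h0
    rw [h0, norm_zero] at hs1
    exact zero_ne_one hs1
  refine ⟨Units.mk0 (s : Ω) hs0, s.2, ?_, fun _ => hs1⟩
  have : (⟨((Units.mk0 (s : Ω) hs0 : Ωˣ) : Ω), s.2⟩ : localLayer K τ') = s := rfl
  rw [this, hsn]

end Local

section Global

variable {q : ℕ} [Fact q.Prime]

local notation "Ω" => PadicAlgCl q

variable (K : Type) [Field K] {L : Type} [Field L] [Algebra K L] [NumberField K] [NumberField L]
  [FiniteDimensional K L] [IsGalois K L]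

/-- Semi-local form of the Kummer norm facts with the valuation condition in case (ii). -/
theorem exists_prod_smul_eq_of_kummer_val {p : ℕ} (hp : p.Prime)
    (hrank : Module.finrank K L = p)
    {ζ : K} (hζ : IsPrimitiveRoot ζ p) {a : K} (ha0 : a ≠ 0) {α : L}
    (hα : α ^ p = algebraMap K L a)
    (hgen : IntermediateField.adjoin K {α} = ⊤) (x : semiLocalUnits q K)
    (hx : ∀ τ : LocalEmb q K,
      (∃ c ∈ localFieldAt τ, c ^ p = τ a) ∨
      (q ≠ p ∧ (∃ c ∈ localFieldAt τ, ‖τ a‖ = ‖c‖ ^ p) ∧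
        ‖((x : LocalEmb q K → Ωˣ) τ : Ω)‖ = 1) ∨
      (∃ v ∈ localFieldAt τ, v ^ p = ((x : LocalEmb q K → Ωˣ) τ : Ω))) :
    ∃ z : semiLocalUnits q L,
      ∏ σ : L ≃ₐ[K] L, σ • z = semiLocalMap (algebraMap K L) x ∧
      (x ∈ semiLocalIntegral q K → z ∈ semiLocalIntegral q L) :=
  exists_prod_smul_eq_of_local_norm K x fun τ' => by
    rcases hx (localEmbRestrict K τ') with h | h | h
    · exact exists_local_norm_of_kummer K hp hrank hζ hα hgen τ' _
        (semiLocalUnits_apply_mem x _) (Or.inl h)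
    · exact exists_local_norm_of_kummer_val K hp hrank hζ ha0 hα hgen τ' _
        (semiLocalUnits_apply_mem x _) h.1 h.2.1 h.2.2
    · exact exists_local_norm_of_kummer K hp hrank hζ hα hgen τ' _
        (semiLocalUnits_apply_mem x _) (Or.inr (Or.inr h))

/-- Idele form. -/
theorem mem_ideleNormSubgroup_of_kummer_val {p : ℕ} (hp : p.Prime)
    (hrank : Module.finrank K L = p) {ζ : K} (hζ : IsPrimitiveRoot ζ p) {a : K} (ha0 : a ≠ 0)
    {α : L} (hα : α ^ p = algebraMap K L a) (hgen : IntermediateField.adjoin K {α} = ⊤)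
    (y : ideleGroup K)
    (hy : ∀ (r : Nat.Primes) (τ : LocalEmb (r : ℕ) K),
      (∃ c ∈ localFieldAt τ, c ^ p = τ a) ∨
      ((r : ℕ) ≠ p ∧ (∃ c ∈ localFieldAt τ, ‖τ a‖ = ‖c‖ ^ p) ∧
        ‖((((y : IdeleProd K) r : semiLocalUnits (r : ℕ) K) :
          LocalEmb (r : ℕ) K → (PadicAlgCl (r : ℕ))ˣ) τ : PadicAlgCl (r : ℕ))‖ = 1) ∨
      (∃ v ∈ localFieldAt τ, v ^ p =
        ((((y : IdeleProd K) r : semiLocalUnits (r : ℕ) K) :
          LocalEmb (r : ℕ) K → (PadicAlgCl (r : ℕ))ˣ) τ : PadicAlgCl (r : ℕ)))) :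
    y ∈ ideleNormSubgroup K L := by
  have hz : ∀ r : Nat.Primes, ∃ z : semiLocalUnits (r : ℕ) L,
      ∏ σ : L ≃ₐ[K] L, σ • z = semiLocalMap (algebraMap K L) ((y : IdeleProd K) r) ∧
      ((y : IdeleProd K) r ∈ semiLocalIntegral (r : ℕ) K → z ∈ semiLocalIntegral (r : ℕ) L) :=
    fun r => exists_prod_smul_eq_of_kummer_val K hp hrank hζ ha0 hα hgen ((y : IdeleProd K) r)
      (hy r)
  choose z hz1 hz2 using hz
  have hmem : (fun r => z r : IdeleProd L) ∈ ideleGroup L := by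
    have h := y.2
    rw [mem_ideleGroup] at h ⊢
    filter_upwards [h] with r hr
    exact hz2 r hr
  rw [mem_ideleNormSubgroup]
  refine ⟨⟨fun r => z r, hmem⟩, ?_⟩
  apply Subtype.ext
  funext r
  rw [ideleMap_coe, ideleProdMap_apply, ← hz1 r]
  have h1 : ∀ (s : Finset (L ≃ₐ[K] L)) (f : (L ≃ₐ[K] L) → ideleGroup L),
      ((∏ σ ∈ s, f σ : ideleGroup L) : IdeleProd L) r = ∏ σ ∈ s, (f σ : IdeleProd L) r := by
    intro s f
    rw [SubmonoidClass.coe_finsetProd, Finset.prod_apply]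
  rw [h1]
  rfl

end Global

section Main

variable (K : Type) [Field K] [NumberField K]

/-- **EU-4c.**  `μ_p ⊆ K`, `p` odd, `p ∈ T`, `J_K = Kˣ · J_{K,T} · J_K^p`.  If `x ∈ Kˣ` is a local
`p`-th power at the primes of `T` and `p ∣ v_w(x)` at the places outside `T`, then `x` is a `p`-th
power in `K`. -/
theorem exists_pow_eq_of_forall_emb_pow_of_classT {p : ℕ}
    (hp : p.Prime) (hp2 : p ≠ 2) {ζ : K} (hζ : IsPrimitiveRoot ζ p) {T : Set Nat.Primes}
    (hpT : ∀ r : Nat.Primes, (r : ℕ) = p → r ∈ T)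
    (hcl : ∀ y : ideleGroup K, ∃ (c : Kˣ) (u w : ideleGroup K),
      (u : IdeleProd K) ∈ ideleGroupOutside K T ∧
        (y : IdeleProd K) = principalIdele K c * (u : IdeleProd K) * (w : IdeleProd K) ^ p)
    (x : Kˣ)
    (hout : ∀ r : Nat.Primes, r ∉ T → ∀ τ : LocalEmb (r : ℕ) K,
      ∃ c ∈ localFieldAt τ, ‖τ (x : K)‖ = ‖c‖ ^ p)
    (hloc : ∀ r ∈ T, ∀ τ : LocalEmb (r : ℕ) K, ∃ c ∈ localFieldAt τ, c ^ p = τ (x : K)) :
    ∃ z : Kˣ, z ^ p = x := by
  by_contra hne
  have hirr : Irreducible (X ^ p - C (x : K)) := by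
    apply X_pow_sub_C_irreducible_of_prime hp
    intro b hb
    have hb0 : b ≠ 0 := by
      rintro rfl
      rw [zero_pow hp.ne_zero] at hb
      exact x.ne_zero hb.symm
    exact hne ⟨Units.mk0 b hb0, Units.ext hb⟩
  haveI := Fact.mk hirr
  have hζ' : (primitiveRoots p K).Nonempty := ⟨ζ, (mem_primitiveRoots hp.pos).2 hζ⟩
  haveI := isSplittingField_AdjoinRoot_X_pow_sub_C hζ' hirr
  haveI : IsGalois K (AdjoinRoot (X ^ p - C (x : K))) :=
    isGalois_of_isSplittingField_X_pow_sub_C hζ' hirr _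
  haveI : FiniteDimensional K (AdjoinRoot (X ^ p - C (x : K))) :=
    Polynomial.IsSplittingField.finiteDimensional _ (X ^ p - C (x : K))
  haveI : CharZero (AdjoinRoot (X ^ p - C (x : K))) :=
    charZero_of_injective_algebraMap (algebraMap K _).injective
  haveI : FiniteDimensional ℚ (AdjoinRoot (X ^ p - C (x : K))) :=
    Module.Finite.trans K _
  haveI : NumberField (AdjoinRoot (X ^ p - C (x : K))) := ⟨⟩
  have hrank : Module.finrank K (AdjoinRoot (X ^ p - C (x : K))) = p :=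
    finrank_of_isSplittingField_X_pow_sub_C hζ' hirr _
  have hα : (AdjoinRoot.root (X ^ p - C (x : K))) ^ p =
      algebraMap K (AdjoinRoot (X ^ p - C (x : K))) (x : K) := root_X_pow_sub_C_pow p (x : K)
  have hgen : IntermediateField.adjoin K {AdjoinRoot.root (X ^ p - C (x : K))} = ⊤ :=
    IntermediateField.adjoin_eq_top_of_algebra K _ (AdjoinRoot.adjoinRoot_eq_top)
  refine FirstIneq.principal_sup_norm_ne_top_of_finrank K (AdjoinRoot (X ^ p - C (x : K)))
    hp hp2 hrank ?_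
  rw [eq_top_iff]
  intro y _
  obtain ⟨c, u, w, hu, hy⟩ := hcl y
  have hmem : principalIdele K c ∈ ideleGroup K := principalIdele_mem_ideleGroup c
  have hy' : y = (⟨principalIdele K c, hmem⟩ : ideleGroup K) * (u * w ^ p) := by
    apply Subtype.ext
    rw [hy, mul_assoc]
    rfl
  rw [hy']
  apply Subgroup.mul_mem_sup
  · rw [principalSubgroup, Subgroup.mem_subgroupOf]
    exact ⟨c, rfl⟩
  · apply mul_mem
    · -- `u ∈ J_{K,T}` is a norm
      apply mem_ideleNormSubgroup_of_kummer_val K hp hrank hζ x.ne_zero hα hgen u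
      intro r τ
      by_cases hr : r ∈ T
      · left
        exact hloc r hr τ
      · right; left
        refine ⟨fun h => hr (hpT r h), hout r hr τ, ?_⟩
        exact (mem_semiLocalIntegral.mp (hu r hr)) τ
    · -- `p`-th powers are norms
      apply mem_ideleNormSubgroup_of_kummer_val K hp hrank hζ x.ne_zero hα hgen (w ^ p)
      intro r τ
      right; right
      refine ⟨((((w : IdeleProd K) r : semiLocalUnits (r : ℕ) K) :
          LocalEmb (r : ℕ) K → (PadicAlgCl (r : ℕ))ˣ) τ : PadicAlgCl (r : ℕ)),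
        semiLocalUnits_apply_mem _ τ, ?_⟩
      rfl

/-- **EU-4c**, with the local condition at `T` in semi-local form. -/
theorem exists_pow_eq_of_local_pow_of_classT {p : ℕ}
    (hp : p.Prime) (hp2 : p ≠ 2) {ζ : K} (hζ : IsPrimitiveRoot ζ p) {T : Set Nat.Primes}
    (hpT : ∀ r : Nat.Primes, (r : ℕ) = p → r ∈ T)
    (hcl : ∀ y : ideleGroup K, ∃ (c : Kˣ) (u w : ideleGroup K),
      (u : IdeleProd K) ∈ ideleGroupOutside K T ∧
        (y : IdeleProd K) = principalIdele K c * (u : IdeleProd K) * (w : IdeleProd K) ^ p)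
    (x : Kˣ)
    (hout : ∀ r : Nat.Primes, r ∉ T → ∀ τ : LocalEmb (r : ℕ) K,
      ∃ c ∈ localFieldAt τ, ‖τ (x : K)‖ = ‖c‖ ^ p)
    (hloc : ∀ r ∈ T, ∃ g : semiLocalUnits (r : ℕ) K, g ^ p = semiLocalDiag x) :
    ∃ z : Kˣ, z ^ p = x := by
  refine exists_pow_eq_of_forall_emb_pow_of_classT K hp hp2 hζ hpT hcl x hout ?_
  intro r hr τ
  obtain ⟨g, hg⟩ := hloc r hr
  refine ⟨((g : LocalEmb (r : ℕ) K → (PadicAlgCl (r : ℕ))ˣ) τ : PadicAlgCl (r : ℕ)),
    semiLocalUnits_apply_mem g τ, ?_⟩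
  rw [← semiLocalDiag_apply (q := (r : ℕ)) x τ, ← hg]
  rfl

/-- **EU-4c**, subgroup form of the class-group hypothesis:
`Kˣ ⊔ J_{K,T} ⊔ J_K^p = J_K` inside `ideleGroup K`. -/
theorem exists_pow_eq_of_local_pow_of_sup_eq_top {p : ℕ}
    (hp : p.Prime) (hp2 : p ≠ 2) {ζ : K} (hζ : IsPrimitiveRoot ζ p) {T : Set Nat.Primes}
    (hpT : ∀ r : Nat.Primes, (r : ℕ) = p → r ∈ T)
    (hcl : principalSubgroup K ⊔ (ideleGroupOutside K T).subgroupOf (ideleGroup K) ⊔
      (powMonoidHom p : ideleGroup K →* ideleGroup K).range = ⊤)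
    (x : Kˣ)
    (hout : ∀ r : Nat.Primes, r ∉ T → ∀ τ : LocalEmb (r : ℕ) K,
      ∃ c ∈ localFieldAt τ, ‖τ (x : K)‖ = ‖c‖ ^ p)
    (hloc : ∀ r ∈ T, ∃ g : semiLocalUnits (r : ℕ) K, g ^ p = semiLocalDiag x) :
    ∃ z : Kˣ, z ^ p = x := by
  refine exists_pow_eq_of_local_pow_of_classT K hp hp2 hζ hpT (fun y => ?_) x hout hloc
  have hy : y ∈ principalSubgroup K ⊔ (ideleGroupOutside K T).subgroupOf (ideleGroup K) ⊔
      (powMonoidHom p : ideleGroup K →* ideleGroup K).range := by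
    rw [hcl]; exact Subgroup.mem_top y
  obtain ⟨a, ha, b, hb, rfl⟩ := Subgroup.mem_sup.mp hy
  obtain ⟨c', hc', u, hu, rfl⟩ := Subgroup.mem_sup.mp ha
  obtain ⟨w, rfl⟩ := hb
  rw [principalSubgroup, Subgroup.mem_subgroupOf] at hc'
  obtain ⟨c, hc⟩ := hc'
  refine ⟨c, u, w, Subgroup.mem_subgroupOf.mp hu, ?_⟩
  rw [hc]
  rfl

/-- **EU-4c** when `Kˣ · J_{K,T} = J_K` (main's `ExistenceModP.sup_jT_eq_top`,
`exists_finite_superset_generates`). -/
theorem exists_pow_eq_of_local_pow_of_jT {p : ℕ}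
    (hp : p.Prime) (hp2 : p ≠ 2) {ζ : K} (hζ : IsPrimitiveRoot ζ p) {T : Set Nat.Primes}
    (hpT : ∀ r : Nat.Primes, (r : ℕ) = p → r ∈ T)
    (hcl : principalSubgroup K ⊔ ExistenceModP.jT K T = ⊤)
    (x : Kˣ)
    (hout : ∀ r : Nat.Primes, r ∉ T → ∀ τ : LocalEmb (r : ℕ) K,
      ∃ c ∈ localFieldAt τ, ‖τ (x : K)‖ = ‖c‖ ^ p)
    (hloc : ∀ r ∈ T, ∃ g : semiLocalUnits (r : ℕ) K, g ^ p = semiLocalDiag x) :
    ∃ z : Kˣ, z ^ p = x := by
  refine exists_pow_eq_of_local_pow_of_sup_eq_top K hp hp2 hζ hpT ?_ x hout hloc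
  rw [eq_top_iff, ← hcl]
  exact le_sup_left

/-- Every finite set of rational primes is contained in a finite `T` for which EU-4c applies
unconditionally. -/
theorem exists_finite_superset_forall_pow {p : ℕ} (hp : p.Prime) (hp2 : p ≠ 2) {ζ : K}
    (hζ : IsPrimitiveRoot ζ p) {S : Set Nat.Primes} (hS : S.Finite) :
    ∃ T : Set Nat.Primes, S ⊆ T ∧ T.Finite ∧
      ((∀ r : Nat.Primes, (r : ℕ) = p → r ∈ T) →
        ∀ x : Kˣ, (∀ r : Nat.Primes, r ∉ T → ∀ τ : LocalEmb (r : ℕ) K,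
            ∃ c ∈ localFieldAt τ, ‖τ (x : K)‖ = ‖c‖ ^ p) →
          (∀ r ∈ T, ∃ g : semiLocalUnits (r : ℕ) K, g ^ p = semiLocalDiag x) →
          ∃ z : Kˣ, z ^ p = x) := by
  obtain ⟨T, hST, hTfin, -, hsup⟩ := ExistenceModP.exists_finite_superset_generates K hS
  exact ⟨T, hST, hTfin, fun hpT x hout hloc =>
    exists_pow_eq_of_local_pow_of_jT K hp hp2 hζ hpT hsup x hout hloc⟩

end Main

end Fermat.Agent.TW.Euler.Base
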