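import Mathlib
import Fermat.Agent.TW.Euler.Base.ShaVanish
import Fermat.Agent.CFT.PT.LocalData
import Fermat.Agent.CFT.PT.JSLocCoind

/-!
# Program G, block EU-4c (part 2): the LC ↔ idele dictionary for Kummer characters

`F ⊆ ℚ̄` a subfield, `U = Gal(ℚ̄/F) = F.fixingSubgroup`.  For a prime `q` and `σ ∈ G_ℚ` main's
`PT/LocalData` gives the decomposition group `locSub q σ U = {γ ∈ G_{ℚ_q} | σ⁻¹ r(γ) σ ∈ U}` of the
place of `F` defined by the embedding `embAt q σ = padicEmbedding q ∘ σ`.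

* `embAtF q F σ : LocalEmb q F`, the restriction of `embAt q σ` to `F`; every embedding of `F` into
  `ℚ̄_q` is of this form (`exists_embAtF_eq`);
* `mem_locSub_fixingSubgroup_iff` : `locSub q σ U = Gal(ℚ̄_q / F_τ)`, `τ = embAtF q F σ`,
  `F_τ = localFieldAt τ` the completion in main's idele vocabulary;
* `embAt_mem_localFieldAt_iff` : `embAt q σ v ∈ F_τ` iff `σ⁻¹ r(γ) σ` fixes `v` for all
  `γ ∈ locSub q σ U` (infinite Galois theory of `ℚ̄_q/ℚ_q`);
* `kummer_dies_iff_local_pow` : **the dictionary**.  For `u = v ^ p ∈ F`, `μ_p ⊆ F`: the Kummer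
  character `g ↦ g v / v` of `u` is trivial on (the image in `U` of) the decomposition group
  `locSub q σ U` iff `u` is a `p`-th power in `F_τ`;
* `mem_of_kummer_dies` : **Ш-vanishing for Kummer characters**.  `F` a number field, `p` odd,
  `p ∈ T`, `J_F = Fˣ · J_{F,T} · J_F^p`, `p ∣ v_w(u)` outside `T`: if the Kummer character of `u`
  dies in all decomposition groups over `T` then it is trivial (`v ∈ F`).  Variants:
  `mem_of_kummer_dies_of_unit` (`u` a `T`-unit), `mem_of_kummer_dies_of_jT`,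
  `mem_of_kummer_dies_of_unit_of_jT` (class group hypothesis `Fˣ · J_{F,T} = J_F` of main's
  `ExistenceModP.sup_jT_eq_top`).
-/

set_option autoImplicit false
set_option linter.unusedSectionVars false
set_option linter.style.haveILetI false
set_option linter.unusedVariables false

noncomputable section

namespace Fermat.Agent.TW.Euler.Base

open Fermat.Agent.CFT Fermat.Agent.CFT.PT Fermat.Agent.CFT.KummerLocal
  Fermat.Agent.CFT.GaloisTower Fermat.Agent.CFT.IdeleDict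

local notation "Qb" => AlgebraicClosure ℚ
local notation "GQ" => (AlgebraicClosure ℚ ≃ₐ[ℚ] AlgebraicClosure ℚ)

section Dict

variable (q : ℕ) [Fact q.Prime] (F : IntermediateField ℚ Qb)

local notation "Ω" => PadicAlgCl q

/-- The embedding `F → ℚ̄_q` induced by `padicEmbedding q ∘ σ`. -/
def embAtF (σ : GQ) : LocalEmb q ↥F := localEmbRestrict ↥F (embAt q σ)

@[simp]
theorem embAtF_apply (σ : GQ) (x : ↥F) :
    embAtF q F σ x = padicEmbedding q (σ (x : Qb)) := rfl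

theorem embAtF_eq_embAt (σ : GQ) (x : ↥F) : embAtF q F σ x = embAt q σ (x : Qb) := rfl

/-- Every embedding of `F` into `ℚ̄_q` is `padicEmbedding q ∘ σ` for some `σ ∈ G_ℚ`. -/
theorem exists_embAtF_eq (τ : LocalEmb q ↥F) : ∃ σ : GQ, embAtF q F σ = τ := by
  haveI : Algebra.IsAlgebraic ℚ Qb := (AlgebraicClosure.instIsAlgClosure ℚ).isAlgebraic
  haveI : Algebra.IsAlgebraic ↥F Qb := Algebra.IsAlgebraic.tower_top (K := ℚ) ↥F
  obtain ⟨τ', rfl⟩ := localEmbRestrict_surjective (q := q) ↥F (L := Qb) τ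
  refine ⟨embGal τ', ?_⟩
  have h : embAt q (embGal τ') = τ' := by
    ext x
    exact padicEmbedding_embGal τ' x
  rw [embAtF, h]

/-- `σ⁻¹ r(γ) σ` fixes `v` iff `γ` fixes `embAt q σ v`. -/
theorem conjLoc_apply_eq_iff (σ : GQ) (γ : Gq q) (v : Qb) :
    conjLoc q σ γ v = v ↔ γ (embAt q σ v) = embAt q σ v := by
  rw [conjLoc_apply, embAt_apply, ← padicEmbedding_localGaloisToGlobal]
  have hinj : Function.Injective (padicEmbedding q) := (padicEmbedding q).injective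
  constructor
  · intro h
    have h1 : σ ((σ⁻¹ * localGaloisToGlobal q γ * σ) v) = σ v := congrArg σ h
    rw [AlgEquiv.mul_apply, AlgEquiv.mul_apply, AlgEquiv.aut_inv, AlgEquiv.apply_symm_apply] at h1
    rw [h1]
  · intro h
    have h1 : localGaloisToGlobal q γ (σ v) = σ v := hinj h
    rw [AlgEquiv.mul_apply, AlgEquiv.mul_apply, h1, AlgEquiv.aut_inv, AlgEquiv.symm_apply_apply]

/-- The decomposition group `locSub q σ Gal(ℚ̄/F)` is `Gal(ℚ̄_q/F_τ)`, `τ = embAtF q F σ`. -/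
theorem mem_locSub_fixingSubgroup_iff (σ : GQ) (γ : Gq q) :
    γ ∈ locSub q σ F.fixingSubgroup ↔ γ ∈ (localFieldAt (embAtF q F σ)).fixingSubgroup := by
  rw [mem_locSub, mem_fixingSubgroup_localFieldAt_iff, IntermediateField.mem_fixingSubgroup_iff]
  constructor
  · intro h
    ext x
    rw [localEmb_smul_apply, embAtF_eq_embAt]
    refine (conjLoc_apply_eq_iff q σ γ (x : Qb)).1 ?_
    rw [conjLoc_apply]
    exact h (x : Qb) x.2
  · intro h x hx
    have h1 : (γ • embAtF q F σ) ⟨x, hx⟩ = embAtF q F σ ⟨x, hx⟩ := by rw [h]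
    rw [localEmb_smul_apply, embAtF_eq_embAt] at h1
    have h2 := (conjLoc_apply_eq_iff q σ γ x).2 h1
    rwa [conjLoc_apply] at h2

theorem locSub_fixingSubgroup_eq (σ : GQ) :
    locSub q σ F.fixingSubgroup = (localFieldAt (embAtF q F σ)).fixingSubgroup :=
  Subgroup.ext fun γ => mem_locSub_fixingSubgroup_iff q F σ γ

/-- `embAt q σ v` lies in the completion `F_τ` iff `v` is fixed by the image in `Gal(ℚ̄/F)` of the
decomposition group at `(q, σ)`. -/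
theorem embAt_mem_localFieldAt_iff (σ : GQ) (v : Qb) :
    embAt q σ v ∈ localFieldAt (embAtF q F σ) ↔
      ∀ γ ∈ locSub q σ F.fixingSubgroup, conjLoc q σ γ v = v := by
  rw [← InfiniteGalois.fixedField_fixingSubgroup (localFieldAt (embAtF q F σ)),
    IntermediateField.mem_fixedField_iff]
  constructor
  · intro h γ hγ
    exact (conjLoc_apply_eq_iff q σ γ v).2 (h γ ((mem_locSub_fixingSubgroup_iff q F σ γ).1 hγ))
  · intro h γ hγ
    exact (conjLoc_apply_eq_iff q σ γ v).1 (h γ ((mem_locSub_fixingSubgroup_iff q F σ γ).2 hγ))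

/-- **The LC ↔ idele dictionary for Kummer characters.**  `μ_p ⊆ F`, `u = v ^ p ∈ F`.  The Kummer
character `g ↦ g v / v` of `u` dies on the decomposition group `locSub q σ Gal(ℚ̄/F)` iff `u` is a
`p`-th power in the completion `F_τ`, `τ = embAtF q F σ`. -/
theorem kummer_dies_iff_local_pow {p : ℕ} (hp : 0 < p) {ζ : ↥F} (hζ : IsPrimitiveRoot ζ p)
    (σ : GQ) (u : ↥F) (v : Qb) (hv : v ^ p = (u : Qb)) :
    (∀ γ ∈ locSub q σ F.fixingSubgroup, conjLoc q σ γ v = v) ↔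
      ∃ c ∈ localFieldAt (embAtF q F σ), c ^ p = embAtF q F σ u := by
  haveI : NeZero p := ⟨hp.ne'⟩
  rw [← embAt_mem_localFieldAt_iff]
  have hpow : (embAt q σ v) ^ p = embAtF q F σ u := by
    rw [← map_pow, hv]
    rfl
  constructor
  · intro h
    exact ⟨_, h, hpow⟩
  · rintro ⟨c, hc, hcp⟩
    by_cases hc0 : c = 0
    · have h0 : embAt q σ v = 0 := by
        have : (embAt q σ v) ^ p = 0 := by rw [hpow, ← hcp, hc0, zero_pow hp.ne']
        exact eq_zero_of_pow_eq_zero this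
      rw [h0]
      exact zero_mem _
    · have hζ' : IsPrimitiveRoot (embAtF q F σ ζ) p :=
        hζ.map_of_injective (embAtF q F σ).injective
      have h1 : (embAt q σ v / c) ^ p = 1 := by
        rw [div_pow, hpow, hcp, div_self]
        rw [← hcp]
        exact pow_ne_zero p hc0
      obtain ⟨i, -, hi⟩ := hζ'.eq_pow_of_pow_eq_one h1
      have h2 : embAt q σ v = embAtF q F σ ζ ^ i * c := by
        rw [hi, div_mul_cancel₀ _ hc0]
      rw [h2]
      exact mul_mem (pow_mem (apply_mem_localFieldAt _ ζ) i) hc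

end Dict

section Global

variable (F : IntermediateField ℚ Qb) [NumberField ↥F]

/-- **Ш-vanishing for Kummer characters (EU-4c in LC vocabulary).**  `F ⊆ ℚ̄` a number field
containing `μ_p`, `p` odd, `p ∈ T`, `J_F = Fˣ · J_{F,T} · J_F^p`.  Let `u = v ^ p ∈ Fˣ` with
`p ∣ v_w(u)` at the places `w` of `F` outside `T`.  If the Kummer character `g ↦ g v / v` of `u`
dies in the decomposition groups `locSub r σ Gal(ℚ̄/F)` for all `r ∈ T`, `σ ∈ G_ℚ`, then it is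
trivial: `v ∈ F`. -/
theorem mem_of_kummer_dies {p : ℕ} (hp : p.Prime) (hp2 : p ≠ 2) {ζ : ↥F}
    (hζ : IsPrimitiveRoot ζ p) {T : Set Nat.Primes}
    (hpT : ∀ r : Nat.Primes, (r : ℕ) = p → r ∈ T)
    (hcl : ∀ y : ideleGroup ↥F, ∃ (c : (↥F)ˣ) (a w : ideleGroup ↥F),
      (a : IdeleProd ↥F) ∈ ideleGroupOutside ↥F T ∧
        (y : IdeleProd ↥F) = principalIdele ↥F c * (a : IdeleProd ↥F) * (w : IdeleProd ↥F) ^ p)
    (u : (↥F)ˣ) (v : Qb) (hv : v ^ p = (((u : (↥F)ˣ) : ↥F) : Qb))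
    (hout : ∀ r : Nat.Primes, r ∉ T → ∀ τ : LocalEmb (r : ℕ) ↥F,
      ∃ c ∈ localFieldAt τ, ‖τ ((u : (↥F)ˣ) : ↥F)‖ = ‖c‖ ^ p)
    (hdie : ∀ r ∈ T, ∀ σ : GQ, ∀ γ ∈ locSub (r : ℕ) σ F.fixingSubgroup,
      conjLoc (r : ℕ) σ γ v = v) :
    v ∈ F := by
  haveI : NeZero p := ⟨hp.ne_zero⟩
  obtain ⟨z, hz⟩ := exists_pow_eq_of_forall_emb_pow_of_classT ↥F hp hp2 hζ hpT hcl u hout
    (fun r hr τ => by
      obtain ⟨σ, rfl⟩ := exists_embAtF_eq (r : ℕ) F τ
      exact (kummer_dies_iff_local_pow (r : ℕ) F hp.pos hζ σ ((u : (↥F)ˣ) : ↥F) v hv).1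
        (hdie r hr σ))
  have hz0 : (((z : (↥F)ˣ) : ↥F) : Qb) ≠ 0 := by
    intro h
    exact z.ne_zero (Subtype.ext h)
  have hζ' : IsPrimitiveRoot ((ζ : ↥F) : Qb) p :=
    hζ.map_of_injective (f := F.val) F.val.injective
  have h1 : (v / (((z : (↥F)ˣ) : ↥F) : Qb)) ^ p = 1 := by
    have hzp : ((((z : (↥F)ˣ) : ↥F) : Qb)) ^ p = (((u : (↥F)ˣ) : ↥F) : Qb) := by
      have := congrArg (fun t : (↥F)ˣ => (((t : (↥F)ˣ) : ↥F) : Qb)) hz
      simpa using this
    rw [div_pow, hv, hzp, div_self]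
    rw [← hzp]
    exact pow_ne_zero p hz0
  obtain ⟨i, -, hi⟩ := hζ'.eq_pow_of_pow_eq_one h1
  have h2 : v = ((ζ : ↥F) : Qb) ^ i * (((z : (↥F)ˣ) : ↥F) : Qb) := by
    rw [hi, div_mul_cancel₀ _ hz0]
  rw [h2]
  exact mul_mem (pow_mem ζ.2 i) (((z : (↥F)ˣ) : ↥F)).2

/-- `Fˣ · J_{F,T} = J_F` implies the class group hypothesis of `mem_of_kummer_dies`. -/
theorem classT_of_jT (K : Type) [Field K] [NumberField K] (p : ℕ) {T : Set Nat.Primes}
    (hcl : principalSubgroup K ⊔ ExistenceModP.jT K T = ⊤) (y : ideleGroup K) :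
    ∃ (c : Kˣ) (a w : ideleGroup K),
      (a : IdeleProd K) ∈ ideleGroupOutside K T ∧
        (y : IdeleProd K) = principalIdele K c * (a : IdeleProd K) * (w : IdeleProd K) ^ p := by
  have hy : y ∈ principalSubgroup K ⊔ ExistenceModP.jT K T := by
    rw [hcl]; exact Subgroup.mem_top y
  obtain ⟨c', hc', a, ha, rfl⟩ := Subgroup.mem_sup.mp hy
  rw [principalSubgroup, Subgroup.mem_subgroupOf] at hc'
  obtain ⟨c, hc⟩ := hc'
  refine ⟨c, a, 1, Subgroup.mem_subgroupOf.mp ha, ?_⟩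
  rw [hc]
  simp

/-- `mem_of_kummer_dies` for a `T`-unit `u` (no condition outside `T`). -/
theorem mem_of_kummer_dies_of_unit {p : ℕ} (hp : p.Prime) (hp2 : p ≠ 2) {ζ : ↥F}
    (hζ : IsPrimitiveRoot ζ p) {T : Set Nat.Primes}
    (hpT : ∀ r : Nat.Primes, (r : ℕ) = p → r ∈ T)
    (hcl : ∀ y : ideleGroup ↥F, ∃ (c : (↥F)ˣ) (a w : ideleGroup ↥F),
      (a : IdeleProd ↥F) ∈ ideleGroupOutside ↥F T ∧
        (y : IdeleProd ↥F) = principalIdele ↥F c * (a : IdeleProd ↥F) * (w : IdeleProd ↥F) ^ p)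
    (u : (↥F)ˣ) (hu : u ∈ (primesOver ↥F T).unit ↥F)
    (v : Qb) (hv : v ^ p = (((u : (↥F)ˣ) : ↥F) : Qb))
    (hdie : ∀ r ∈ T, ∀ σ : GQ, ∀ γ ∈ locSub (r : ℕ) σ F.fixingSubgroup,
      conjLoc (r : ℕ) σ γ v = v) :
    v ∈ F := by
  refine mem_of_kummer_dies F hp hp2 hζ hpT hcl u v hv ?_ hdie
  intro r hr τ
  refine ⟨1, one_mem _, ?_⟩
  rw [norm_emb_eq_one_of_mem_unit ↥F hu r hr τ, norm_one, one_pow]

/-- `mem_of_kummer_dies` under `Fˣ · J_{F,T} = J_F`. -/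
theorem mem_of_kummer_dies_of_jT {p : ℕ} (hp : p.Prime) (hp2 : p ≠ 2) {ζ : ↥F}
    (hζ : IsPrimitiveRoot ζ p) {T : Set Nat.Primes}
    (hpT : ∀ r : Nat.Primes, (r : ℕ) = p → r ∈ T)
    (hcl : principalSubgroup ↥F ⊔ ExistenceModP.jT ↥F T = ⊤)
    (u : (↥F)ˣ) (v : Qb) (hv : v ^ p = (((u : (↥F)ˣ) : ↥F) : Qb))
    (hout : ∀ r : Nat.Primes, r ∉ T → ∀ τ : LocalEmb (r : ℕ) ↥F,
      ∃ c ∈ localFieldAt τ, ‖τ ((u : (↥F)ˣ) : ↥F)‖ = ‖c‖ ^ p)
    (hdie : ∀ r ∈ T, ∀ σ : GQ, ∀ γ ∈ locSub (r : ℕ) σ F.fixingSubgroup,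
      conjLoc (r : ℕ) σ γ v = v) :
    v ∈ F :=
  mem_of_kummer_dies F hp hp2 hζ hpT (classT_of_jT ↥F p hcl) u v hv hout hdie

/-- `mem_of_kummer_dies` for a `T`-unit under `Fˣ · J_{F,T} = J_F`. -/
theorem mem_of_kummer_dies_of_unit_of_jT {p : ℕ} (hp : p.Prime) (hp2 : p ≠ 2) {ζ : ↥F}
    (hζ : IsPrimitiveRoot ζ p) {T : Set Nat.Primes}
    (hpT : ∀ r : Nat.Primes, (r : ℕ) = p → r ∈ T)
    (hcl : principalSubgroup ↥F ⊔ ExistenceModP.jT ↥F T = ⊤)
    (u : (↥F)ˣ) (hu : u ∈ (primesOver ↥F T).unit ↥F)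
    (v : Qb) (hv : v ^ p = (((u : (↥F)ˣ) : ↥F) : Qb))
    (hdie : ∀ r ∈ T, ∀ σ : GQ, ∀ γ ∈ locSub (r : ℕ) σ F.fixingSubgroup,
      conjLoc (r : ℕ) σ γ v = v) :
    v ∈ F :=
  mem_of_kummer_dies_of_unit F hp hp2 hζ hpT (classT_of_jT ↥F p hcl) u hu v hv hdie

end Global

end Fermat.Agent.TW.Euler.Base

end
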