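import Mathlib
import Fermat.Agent.TW.Euler.Base.KummerLocalDict
import Fermat.Agent.CFT.Global.UnramOutsideS

/-!
# Program G, block EU-4c (part 3): the condition outside `T` from unramifiedness

`F ⊆ ℚ̄`, `u = v ^ p ∈ F` with `v` in a field `E'` unramified outside the finite set `S`
(Prelude predicate `IntermediateField.IsUnramifiedOutside`, i.e. the Kummer character of `u` has
level `S55.globalLevel S`).  Then `p ∣ w(u)` for the places `w` of `F` outside `S`, in the form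
consumed by `ShaVanish` / `KummerLocalDict`:

* `exists_norm_eq_pow_of_isUnramifiedOutside` : `‖τ u‖ = ‖c‖ ^ p` with `c ∈ F_τ`, for `τ` over
  `r ∉ S`;
* `mem_of_kummer_dies_of_isUnramifiedOutside` : **Ш-vanishing for Kummer characters of level
  `S`**: if such a character dies in all decomposition groups over `S` then it is trivial.
-/

set_option autoImplicit false
set_option linter.unusedSectionVars false
set_option linter.style.haveILetI false
set_option linter.unusedVariables false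

noncomputable section

namespace Fermat.Agent.TW.Euler.Base

open Fermat.Agent.CFT Fermat.Agent.CFT.PT Fermat.Agent.CFT.KummerLocal
  Fermat.Agent.CFT.GaloisTower Fermat.Agent.CFT.IdeleDict

local notation "Qb" => AlgebraicClosure ℚ
local notation "GQ" => (AlgebraicClosure ℚ ≃ₐ[ℚ] AlgebraicClosure ℚ)

variable (F : IntermediateField ℚ Qb)

/-- If `v` lies in a field unramified outside `S` and `u = v ^ p ∈ F`, then `p ∣ w(u)` at the
places of `F` over the primes `r ∉ S`. -/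
theorem exists_norm_eq_pow_of_isUnramifiedOutside {S : Finset Nat.Primes}
    {E' : IntermediateField ℚ Qb} (hE' : E'.IsUnramifiedOutside S) {p : ℕ} (u : ↥F) (v : Qb)
    (hv : v ^ p = (u : Qb)) (hvE : v ∈ E') (hv0 : v ≠ 0) {r : Nat.Primes} (hr : r ∉ S)
    (τ : LocalEmb (r : ℕ) ↥F) :
    ∃ c ∈ localFieldAt τ, ‖τ u‖ = ‖c‖ ^ p := by
  obtain ⟨σ, rfl⟩ := exists_embAtF_eq (r : ℕ) F τ
  have hy : embAt (r : ℕ) σ v ∈ localFieldAt (embAtF (r : ℕ) E' σ) :=
    apply_mem_localFieldAt (embAtF (r : ℕ) E' σ) ⟨v, hvE⟩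
  have hy0 : embAt (r : ℕ) σ v ≠ 0 := by
    rw [Ne, map_eq_zero_iff _ (embAt (r : ℕ) σ).injective]
    exact hv0
  obtain ⟨n, hn⟩ := exists_norm_eq_zpow_of_isUnramifiedOutside hE' hr
    (E'.val : ↥E' →+* Qb) (fun x => x.2) (embAtF (r : ℕ) E' σ) _ hy hy0
  refine ⟨(embAtF (r : ℕ) F σ (((r : ℕ) : ℕ) : ↥F)) ^ n,
    zpow_mem (apply_mem_localFieldAt _ _) n, ?_⟩
  have h1 : embAtF (r : ℕ) F σ u = (embAt (r : ℕ) σ v) ^ p := by
    rw [← map_pow, hv]
    rfl
  rw [h1, norm_pow, hn, norm_zpow, norm_emb_self]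

variable [NumberField ↥F]

/-- **Ш-vanishing for Kummer characters of level `S`.**  `F ⊆ ℚ̄` a number field containing
`μ_p`, `p` odd, `p ∈ S`, `J_F = Fˣ · J_{F,S} · J_F^p`.  Let `u = v ^ p ∈ Fˣ` with `v` in a field
unramified outside `S`.  If the Kummer character `g ↦ g v / v` dies in the decomposition groups
`locSub r σ Gal(ℚ̄/F)` for all `r ∈ S`, `σ ∈ G_ℚ`, then `v ∈ F`. -/
theorem mem_of_kummer_dies_of_isUnramifiedOutside {p : ℕ} (hp : p.Prime) (hp2 : p ≠ 2) {ζ : ↥F}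
    (hζ : IsPrimitiveRoot ζ p) {S : Finset Nat.Primes}
    (hpS : ∀ r : Nat.Primes, (r : ℕ) = p → r ∈ S)
    (hcl : ∀ y : ideleGroup ↥F, ∃ (c : (↥F)ˣ) (a w : ideleGroup ↥F),
      (a : IdeleProd ↥F) ∈ ideleGroupOutside ↥F (↑S : Set Nat.Primes) ∧
        (y : IdeleProd ↥F) = principalIdele ↥F c * (a : IdeleProd ↥F) * (w : IdeleProd ↥F) ^ p)
    {E' : IntermediateField ℚ Qb} (hE' : E'.IsUnramifiedOutside S)
    (u : (↥F)ˣ) (v : Qb) (hv : v ^ p = (((u : (↥F)ˣ) : ↥F) : Qb)) (hvE : v ∈ E')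
    (hdie : ∀ r ∈ S, ∀ σ : GQ, ∀ γ ∈ locSub (r : ℕ) σ F.fixingSubgroup,
      conjLoc (r : ℕ) σ γ v = v) :
    v ∈ F := by
  have hv0 : v ≠ 0 := by
    rintro rfl
    rw [zero_pow hp.ne_zero] at hv
    exact u.ne_zero (Subtype.ext hv.symm)
  refine mem_of_kummer_dies F hp hp2 hζ (T := (↑S : Set Nat.Primes))
    (fun r h => Finset.mem_coe.2 (hpS r h)) hcl u v hv ?_
    (fun r hr => hdie r (Finset.mem_coe.1 hr))
  intro r hr τ
  exact exists_norm_eq_pow_of_isUnramifiedOutside F hE' ((u : (↥F)ˣ) : ↥F) v hv hvE hv0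
    (fun h => hr (Finset.mem_coe.2 h)) τ

/-- The same under `Fˣ · J_{F,S} = J_F`. -/
theorem mem_of_kummer_dies_of_isUnramifiedOutside_of_jT {p : ℕ} (hp : p.Prime) (hp2 : p ≠ 2)
    {ζ : ↥F} (hζ : IsPrimitiveRoot ζ p) {S : Finset Nat.Primes}
    (hpS : ∀ r : Nat.Primes, (r : ℕ) = p → r ∈ S)
    (hcl : principalSubgroup ↥F ⊔ ExistenceModP.jT ↥F (↑S : Set Nat.Primes) = ⊤)
    {E' : IntermediateField ℚ Qb} (hE' : E'.IsUnramifiedOutside S)
    (u : (↥F)ˣ) (v : Qb) (hv : v ^ p = (((u : (↥F)ˣ) : ↥F) : Qb)) (hvE : v ∈ E')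
    (hdie : ∀ r ∈ S, ∀ σ : GQ, ∀ γ ∈ locSub (r : ℕ) σ F.fixingSubgroup,
      conjLoc (r : ℕ) σ γ v = v) :
    v ∈ F :=
  mem_of_kummer_dies_of_isUnramifiedOutside F hp hp2 hζ hpS (classT_of_jT ↥F p hcl) hE' u v hv hvE
    hdie

end Fermat.Agent.TW.Euler.Base

end
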