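import Mathlib
import Fermat.Agent.TW.Euler.Base.KummerUnramOut
import Fermat.Agent.CFT.Kummer.Hilbert90
import Fermat.Agent.CFT.LC.KummerPairing
import Fermat.Agent.S55.LCBridgeGlobal

/-!
# Program G, node (KUM-Ш): vanishing of `Ш¹` for LC characters

`F ⊆ ℚ̄` a number field unramified outside the finite set `S ∋ p`, `μ_p ⊆ F`, `p` odd,
`J_F = Fˣ · J_{F,S} · J_F^p`, `U = Gal(ℚ̄/F) = F.fixingSubgroup`.

* `muHom`, `exists_kummer_gen` : every character `χ : U → 𝔽_p` of finite level is the Kummer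
  character of some `v ∈ ℚ̄ˣ` with `v ^ p ∈ F` (Hilbert 90 of main's `Kummer/Hilbert90`, translated
  to `F.fixingSubgroup ≤ G_ℚ`);
* `char_eq_one_of_dies` : **(KUM-Ш)** a character `χ : U →* Multiplicative (ZMod p)` whose kernel
  is open for `(globalLevel S).comap U.subtype` and which is trivial on the decomposition groups
  `locSub r σ U` (`r ∈ S`, `σ ∈ G_ℚ`) is trivial;
* `xchar_eq_zero_of_dies` : the same for `f ∈ XChar ((globalLevel S).comap U.subtype) p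
  = H¹_LC(U, 𝔽_p)`;
* `xchar_eq_zero_of_vanish_conj` : the same with the local condition in the form
  "`f` vanishes on `U ∩ g · range (primeLocalToGlobal ℓ) · g⁻¹` for all `g ∈ G_ℚ`, `ℓ ∈ S`".
-/

set_option autoImplicit false
set_option linter.unusedSectionVars false
set_option linter.style.haveILetI false
set_option linter.unusedVariables false

noncomputable section

namespace Fermat.Agent.TW.Euler.Base

open Fermat.Agent.CFT Fermat.Agent.CFT.PT Fermat.Agent.CFT.KummerLocal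
  Fermat.Agent.CFT.GaloisTower Fermat.Agent.CFT.IdeleDict Fermat.Agent.S55

local notation "Qb" => AlgebraicClosure ℚ
local notation "GQ" => (AlgebraicClosure ℚ ≃ₐ[ℚ] AlgebraicClosure ℚ)

local instance instIsGaloisQbKummerSha : IsGalois ℚ Qb :=
  Fermat.Agent.S54.FrobExists.isGalois_rat_algebraicClosure

section MuHom

variable {K : Type*} [Field K] (p : ℕ) [NeZero p]

/-- `𝔽_p → μ_p(K)`, `z ↦ ζ ^ z`. -/
def muHom (ζ : Kˣ) (h : ζ ^ p = 1) : Multiplicative (ZMod p) →* Kˣ where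
  toFun z := ζ ^ (Multiplicative.toAdd z).val
  map_one' := by
    show ζ ^ (0 : ZMod p).val = 1
    rw [ZMod.val_zero, pow_zero]
  map_mul' a b := by
    show ζ ^ (Multiplicative.toAdd a + Multiplicative.toAdd b).val = _
    rw [ZMod.val_add, ← pow_add, ← pow_eq_pow_mod _ h]

@[simp]
theorem muHom_apply (ζ : Kˣ) (h : ζ ^ p = 1) (z : Multiplicative (ZMod p)) :
    muHom p ζ h z = ζ ^ (Multiplicative.toAdd z).val := rfl

end MuHom

section Gen

variable {p : ℕ}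

/-- **Kummer theory for `F.fixingSubgroup`.**  Every character `χ : Gal(ℚ̄/F) → 𝔽_p` trivial on
`Gal(ℚ̄/E) ∩ Gal(ℚ̄/F)`, `E/ℚ` finite, is the Kummer character of some `v ∈ (E F)ˣ` with
`v ^ p ∈ F`. -/
theorem exists_kummer_gen (hp : p.Prime) (F : IntermediateField ℚ Qb) {ζ : ↥F}
    (hζ : IsPrimitiveRoot ζ p) (χ : ↥F.fixingSubgroup →* Multiplicative (ZMod p))
    (E : IntermediateField ℚ Qb) [FiniteDimensional ℚ ↥E] [FiniteDimensional ℚ ↥F]
    (hE : ∀ g : ↥F.fixingSubgroup, (g : GQ) ∈ E.fixingSubgroup → χ g = 1) :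
    ∃ v : Qb, v ≠ 0 ∧ v ∈ E ⊔ F ∧ (∃ u : ↥F, (u : Qb) = v ^ p) ∧
      ∀ g : ↥F.fixingSubgroup,
        (g : GQ) v = ((ζ : ↥F) : Qb) ^ (Multiplicative.toAdd (χ g)).val * v := by
  haveI : NeZero p := ⟨hp.ne_zero⟩
  haveI : IsGalois ↥F Qb := IsGalois.tower_top_of_isGalois ℚ ↥F Qb
  let e : ↥F.fixingSubgroup ≃* (Qb ≃ₐ[↥F] Qb) := IntermediateField.fixingSubgroupEquiv F
  have he : ∀ (g : ↥F.fixingSubgroup) (x : Qb), e g x = (g : GQ) x := fun _ _ => rfl
  let ζu : (↥F)ˣ := Units.mk0 ζ (hζ.ne_zero hp.ne_zero)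
  have hζu : ζu ^ p = 1 := Units.ext (by
    rw [Units.val_pow_eq_pow_val]
    exact hζ.pow_eq_one)
  let χ' : (Qb ≃ₐ[↥F] Qb) →* (↥F)ˣ := (muHom p ζu hζu).comp (χ.comp e.symm.toMonoidHom)
  have hχ' : ∀ g : ↥F.fixingSubgroup,
      χ' (e g) = ζu ^ (Multiplicative.toAdd (χ g)).val := by
    intro g
    show muHom p ζu hζu (χ (e.symm (e g))) = _
    rw [e.symm_apply_apply, muHom_apply]
  let E₁ : IntermediateField ↥F Qb :=
    IntermediateField.extendScalars (le_sup_right : F ≤ E ⊔ F)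
  haveI : FiniteDimensional ℚ ↥(E ⊔ F) := IntermediateField.finiteDimensional_sup E F
  haveI : FiniteDimensional ℚ ↥E₁ := (inferInstance : FiniteDimensional ℚ ↥(E ⊔ F))
  haveI : FiniteDimensional ↥F ↥E₁ := Module.Finite.of_restrictScalars_finite ℚ ↥F ↥E₁
  have hker : E₁.fixingSubgroup ≤ χ'.ker := by
    intro σ hσ
    obtain ⟨g, rfl⟩ := e.surjective σ
    rw [MonoidHom.mem_ker, hχ']
    have hg : (g : GQ) ∈ E.fixingSubgroup := by
      rw [IntermediateField.mem_fixingSubgroup_iff]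
      intro x hx
      rw [IntermediateField.mem_fixingSubgroup_iff] at hσ
      have := hσ x ((IntermediateField.mem_extendScalars _).2
        ((le_sup_left : E ≤ E ⊔ F) hx))
      rwa [he] at this
    rw [hE g hg]
    show ζu ^ (0 : ZMod p).val = 1
    rw [ZMod.val_zero, pow_zero]
  obtain ⟨β, hβ⟩ := Kummer.exists_kum_eq χ' E₁ hker
  have hspec : ∀ g : ↥F.fixingSubgroup,
      (g : GQ) (β : Qb) = ((ζ : ↥F) : Qb) ^ (Multiplicative.toAdd (χ g)).val * (β : Qb) := by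
    intro g
    have h1 := congrArg (fun t : Qbˣ => (t : Qb)) (hβ (e g))
    simp only [Kummer.kum_val, Units.coe_map, MonoidHom.coe_coe] at h1
    rw [hχ', he] at h1
    rw [div_eq_iff β.ne_zero] at h1
    rw [h1]
    simp [ζu]
  refine ⟨(β : Qb), β.ne_zero, ?_, ?_, hspec⟩
  · rw [← InfiniteGalois.fixedField_fixingSubgroup (E ⊔ F), IntermediateField.mem_fixedField_iff]
    intro g hg
    rw [IntermediateField.fixingSubgroup_sup] at hg
    have h1 := hspec ⟨g, hg.2⟩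
    rw [hE ⟨g, hg.2⟩ hg.1] at h1
    rw [h1]
    show ((ζ : ↥F) : Qb) ^ (0 : ZMod p).val * _ = _
    rw [ZMod.val_zero, pow_zero, one_mul]
  · have hmem : (β : Qb) ^ p ∈ F := by
      rw [← InfiniteGalois.fixedField_fixingSubgroup F, IntermediateField.mem_fixedField_iff]
      intro g hg
      have h1 := hspec ⟨g, hg⟩
      rw [map_pow]
      show ((g : GQ) (β : Qb)) ^ p = _
      rw [h1, mul_pow, ← pow_mul, mul_comm _ p, pow_mul]
      have : (((ζ : ↥F) : Qb)) ^ p = 1 := by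
        have := congrArg (fun t : ↥F => (t : Qb)) hζ.pow_eq_one
        simpa using this
      rw [this, one_pow, one_mul]
    exact ⟨⟨_, hmem⟩, rfl⟩

end Gen

section Sha

variable {p : ℕ} (F : IntermediateField ℚ Qb) [NumberField ↥F]

/-- **(KUM-Ш), character form.**  `F ⊆ ℚ̄` a number field unramified outside `S ∋ p`, `μ_p ⊆ F`,
`p` odd, `J_F = Fˣ · J_{F,S} · J_F^p`, `U = Gal(ℚ̄/F)`.  A character `χ : U → 𝔽_p` with open kernel
for the level structure `(globalLevel S).comap U.subtype` which is trivial on the decomposition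
groups `locSub r σ U`, `r ∈ S`, `σ ∈ G_ℚ`, is trivial. -/
theorem char_eq_one_of_dies (hp : p.Prime) (hp2 : p ≠ 2) {S : Finset Nat.Primes}
    (hpS : ∀ r : Nat.Primes, (r : ℕ) = p → r ∈ S) (hF : F.IsUnramifiedOutside S) {ζ : ↥F}
    (hζ : IsPrimitiveRoot ζ p)
    (hcl : ∀ y : ideleGroup ↥F, ∃ (c : (↥F)ˣ) (a w : ideleGroup ↥F),
      (a : IdeleProd ↥F) ∈ ideleGroupOutside ↥F (↑S : Set Nat.Primes) ∧
        (y : IdeleProd ↥F) = principalIdele ↥F c * (a : IdeleProd ↥F) * (w : IdeleProd ↥F) ^ p)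
    (χ : ↥F.fixingSubgroup →* Multiplicative (ZMod p))
    (hχ : ((globalLevel S).comap F.fixingSubgroup.subtype).IsOpen χ.ker)
    (hdie : ∀ r ∈ S, ∀ σ : GQ, ∀ γ : ↥(locSub (r : ℕ) σ F.fixingSubgroup),
      χ (locHom (r : ℕ) σ F.fixingSubgroup γ) = 1) :
    χ = 1 := by
  haveI : NeZero p := ⟨hp.ne_zero⟩
  obtain ⟨_, ⟨_, ⟨E, -, hE, rfl⟩, rfl⟩, hle⟩ := hχ
  haveI := hE.1
  haveI := hF.1
  obtain ⟨v, hv0, hvE, ⟨u, hu⟩, hspec⟩ := exists_kummer_gen hp F hζ χ E (fun g hg =>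
    (MonoidHom.mem_ker).1 (hle (Subgroup.mem_comap.2 hg)))
  have hu0 : u ≠ 0 := by
    rintro rfl
    exact hv0 (eq_zero_of_pow_eq_zero (n := p) (by rw [← hu]; rfl))
  have hfix : ∀ g : ↥F.fixingSubgroup, χ g = 1 → (g : GQ) v = v := by
    intro g hg
    rw [hspec g, hg]
    show ((ζ : ↥F) : Qb) ^ (0 : ZMod p).val * _ = _
    rw [ZMod.val_zero, pow_zero, one_mul]
  have hvF : v ∈ F := by
    refine mem_of_kummer_dies_of_isUnramifiedOutside F hp hp2 hζ hpS hcl (hE.sup hF)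
      (Units.mk0 u hu0) v hu.symm hvE ?_
    intro r hr σ γ hγ
    have h1 := hfix (locHom (r : ℕ) σ F.fixingSubgroup ⟨γ, hγ⟩) (hdie r hr σ ⟨γ, hγ⟩)
    rw [coe_locHom] at h1
    rw [conjLoc_apply]
    exact h1
  ext g
  have h1 := hspec g
  have h2 : (g : GQ) v = v := by
    have := g.2
    rw [IntermediateField.mem_fixingSubgroup_iff] at this
    exact this v hvF
  rw [h2] at h1
  have h3 : ((ζ : ↥F) : Qb) ^ (Multiplicative.toAdd (χ g)).val = 1 := by
    have h4 : (((ζ : ↥F) : Qb) ^ (Multiplicative.toAdd (χ g)).val - 1) * v = 0 := by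
      rw [sub_mul, one_mul, ← h1, sub_self]
    rcases mul_eq_zero.1 h4 with h5 | h5
    · exact sub_eq_zero.1 h5
    · exact absurd h5 hv0
  have hζ' : IsPrimitiveRoot ((ζ : ↥F) : Qb) p :=
    hζ.map_of_injective (f := F.val) F.val.injective
  have h6 : p ∣ (Multiplicative.toAdd (χ g)).val := (hζ'.pow_eq_one_iff_dvd _).1 h3
  have h7 : (Multiplicative.toAdd (χ g)).val = 0 :=
    Nat.eq_zero_of_dvd_of_lt h6 (ZMod.val_lt _)
  have h8 : Multiplicative.toAdd (χ g) = 0 := (ZMod.val_eq_zero _).1 h7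
  exact h8

/-- **(KUM-Ш), `XChar` form.**  An element of `H¹_LC(U, 𝔽_p) = XChar ((globalLevel S).comap _) p`,
`U = Gal(ℚ̄/F)`, which dies in all decomposition groups over `S` is zero. -/
theorem xchar_eq_zero_of_dies (hp : p.Prime) (hp2 : p ≠ 2) {S : Finset Nat.Primes}
    (hpS : ∀ r : Nat.Primes, (r : ℕ) = p → r ∈ S) (hF : F.IsUnramifiedOutside S) {ζ : ↥F}
    (hζ : IsPrimitiveRoot ζ p)
    (hcl : ∀ y : ideleGroup ↥F, ∃ (c : (↥F)ˣ) (a w : ideleGroup ↥F),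
      (a : IdeleProd ↥F) ∈ ideleGroupOutside ↥F (↑S : Set Nat.Primes) ∧
        (y : IdeleProd ↥F) = principalIdele ↥F c * (a : IdeleProd ↥F) * (w : IdeleProd ↥F) ^ p)
    (f : LCSym.XChar ((globalLevel S).comap F.fixingSubgroup.subtype) p)
    (hdie : ∀ r ∈ S, ∀ σ : GQ, ∀ γ : ↥(locSub (r : ℕ) σ F.fixingSubgroup),
      (f : ↥F.fixingSubgroup → ZMod p) (locHom (r : ℕ) σ F.fixingSubgroup γ) = 0) :
    f = 0 := by
  apply LCSym.charOf_injective
  rw [LCSym.charOf_zero]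
  refine char_eq_one_of_dies F hp hp2 hpS hF hζ hcl (LCSym.charOf f) (LCSym.isOpen_ker_charOf f) ?_
  intro r hr σ γ
  rw [LCSym.charOf_apply, hdie r hr σ γ]
  rfl

/-- **(KUM-Ш)**, with the local condition in conjugate form: `f` vanishes on
`U ∩ g · range (primeLocalToGlobal ℓ) · g⁻¹` for all `g ∈ G_ℚ`, `ℓ ∈ S`. -/
theorem xchar_eq_zero_of_vanish_conj (hp : p.Prime) (hp2 : p ≠ 2) {S : Finset Nat.Primes}
    (hpS : ∀ r : Nat.Primes, (r : ℕ) = p → r ∈ S) (hF : F.IsUnramifiedOutside S) {ζ : ↥F}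
    (hζ : IsPrimitiveRoot ζ p)
    (hcl : ∀ y : ideleGroup ↥F, ∃ (c : (↥F)ˣ) (a w : ideleGroup ↥F),
      (a : IdeleProd ↥F) ∈ ideleGroupOutside ↥F (↑S : Set Nat.Primes) ∧
        (y : IdeleProd ↥F) = principalIdele ↥F c * (a : IdeleProd ↥F) * (w : IdeleProd ↥F) ^ p)
    (f : LCSym.XChar ((globalLevel S).comap F.fixingSubgroup.subtype) p)
    (hdie : ∀ ℓ ∈ S, ∀ (g : GQ) (τ : ExtCitation.primeLocalGaloisGroup ℓ)
      (h : g * ExtCitation.primeLocalToGlobal ℓ τ * g⁻¹ ∈ F.fixingSubgroup),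
      (f : ↥F.fixingSubgroup → ZMod p) ⟨_, h⟩ = 0) :
    f = 0 := by
  refine xchar_eq_zero_of_dies F hp hp2 hpS hF hζ hcl f ?_
  intro r hr σ γ
  have hγ := γ.2
  rw [mem_locSub] at hγ
  have h1 : σ⁻¹ * ExtCitation.primeLocalToGlobal r (γ : Gq (r : ℕ)) * σ⁻¹⁻¹ ∈
      F.fixingSubgroup := by
    rw [inv_inv]
    exact hγ
  have h2 := hdie r hr σ⁻¹ (γ : Gq (r : ℕ)) h1
  have h3 : (⟨_, h1⟩ : ↥F.fixingSubgroup) = locHom (r : ℕ) σ F.fixingSubgroup γ := by
    apply Subtype.ext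
    rw [coe_locHom]
    show σ⁻¹ * ExtCitation.primeLocalToGlobal r (γ : Gq (r : ℕ)) * σ⁻¹⁻¹ = _
    rw [inv_inv]
    rfl
  rw [← h3]
  exact h2

/-- **(KUM-Ш), vector-valued form.**  The same for homomorphisms `χ : U → A` into an `𝔽_p`-vector
space `A` (e.g. `A = k'`, a finite extension of `𝔽_p`). -/
theorem hom_eq_one_of_dies (hp : p.Prime) (hp2 : p ≠ 2) {S : Finset Nat.Primes}
    (hpS : ∀ r : Nat.Primes, (r : ℕ) = p → r ∈ S) (hF : F.IsUnramifiedOutside S) {ζ : ↥F}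
    (hζ : IsPrimitiveRoot ζ p)
    (hcl : ∀ y : ideleGroup ↥F, ∃ (c : (↥F)ˣ) (a w : ideleGroup ↥F),
      (a : IdeleProd ↥F) ∈ ideleGroupOutside ↥F (↑S : Set Nat.Primes) ∧
        (y : IdeleProd ↥F) = principalIdele ↥F c * (a : IdeleProd ↥F) * (w : IdeleProd ↥F) ^ p)
    {A : Type*} [AddCommGroup A] [Module (ZMod p) A]
    (χ : ↥F.fixingSubgroup →* Multiplicative A)
    (hχ : ((globalLevel S).comap F.fixingSubgroup.subtype).IsOpen χ.ker)
    (hdie : ∀ r ∈ S, ∀ σ : GQ, ∀ γ : ↥(locSub (r : ℕ) σ F.fixingSubgroup),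
      χ (locHom (r : ℕ) σ F.fixingSubgroup γ) = 1) :
    χ = 1 := by
  haveI : Fact p.Prime := ⟨hp⟩
  ext g
  show Multiplicative.toAdd (χ g) = 0
  rw [← Module.forall_dual_apply_eq_zero_iff (ZMod p)]
  intro l
  let χl : ↥F.fixingSubgroup →* Multiplicative (ZMod p) :=
    (AddMonoidHom.toMultiplicative l.toAddMonoidHom).comp χ
  have hχl : χl = 1 := by
    refine char_eq_one_of_dies F hp hp2 hpS hF hζ hcl χl ?_ ?_
    · refine LevelStructure.IsOpen.mono _ hχ ?_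
      intro g hg
      rw [MonoidHom.mem_ker] at hg ⊢
      show (AddMonoidHom.toMultiplicative l.toAddMonoidHom) (χ g) = 1
      rw [hg, map_one]
    · intro r hr σ γ
      show (AddMonoidHom.toMultiplicative l.toAddMonoidHom) (χ _) = 1
      rw [hdie r hr σ γ, map_one]
  have := congrArg (fun ψ : ↥F.fixingSubgroup →* Multiplicative (ZMod p) =>
    Multiplicative.toAdd (ψ g)) hχl
  exact this

end Sha

end Fermat.Agent.TW.Euler.Base

end
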