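import Mathlib
import Fermat.Agent.TW.Euler.Base.KummerSha

/-!
# Program G, base case: the predicate `CT p T N` ("`Cl_T(K_N)/p = 0`") of `ArithNodesOut`

* `ClTp K p T` : `J_K = Kˣ · J_{K,T} · J_K^p` (idele form of `Cl_T(K)/p = 0`), the hypothesis `hcl` of
  `ShaVanish`, `KummerLocalDict`, `KummerSha`;
* `CT p T N` : `GeneratesClassGroup ↥F (primesOver ↥F ↑T)` (main's working form of `Cl_T(F) = 0`)
  for the fixed field `F` of `N` (stated for every number field `F ⊆ ℚ̄` with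
  `F.fixingSubgroup = N`); it implies `Kˣ · J_{K,T} = J_K` and `ClTp`;
* `exists_CT` : every level `N` of `globalLevel T` satisfies `CT p T' N` for some finite `T' ⊇ T`
  (main's `ExistenceModP.exists_finite_superset_generates`): the first component of
  `ArithNodesOut`;
* `CT.xchar_eq_zero_of_vanish_conj` etc.: (KUM-Ш) restated under `CT`.
-/

set_option autoImplicit false
set_option linter.unusedSectionVars false
set_option linter.style.haveILetI false
set_option linter.unusedVariables false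

noncomputable section

namespace Fermat.Agent.TW.Euler.Base

open Fermat.Agent.CFT Fermat.Agent.CFT.PT Fermat.Agent.CFT.KummerLocal
  Fermat.Agent.CFT.GaloisTower Fermat.Agent.CFT.IdeleDict Fermat.Agent.S55

local notation "Qb" => AlgebraicClosure ℚ
local notation "GQ" => (AlgebraicClosure ℚ ≃ₐ[ℚ] AlgebraicClosure ℚ)

local instance instIsGaloisQbClassT : IsGalois ℚ Qb :=
  Fermat.Agent.S54.FrobExists.isGalois_rat_algebraicClosure

/-- `J_K = Kˣ · J_{K,T} · J_K^p`: the idele form of `Cl_T(K)/p = 0`. -/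
def ClTp (K : Type) [Field K] [NumberField K] (p : ℕ) (T : Set Nat.Primes) : Prop :=
  ∀ y : ideleGroup K, ∃ (c : Kˣ) (a w : ideleGroup K),
    (a : IdeleProd K) ∈ ideleGroupOutside K T ∧
      (y : IdeleProd K) = principalIdele K c * (a : IdeleProd K) * (w : IdeleProd K) ^ p

theorem clTp_of_jT (K : Type) [Field K] [NumberField K] (p : ℕ) {T : Set Nat.Primes}
    (hcl : principalSubgroup K ⊔ ExistenceModP.jT K T = ⊤) : ClTp K p T :=
  fun y => classT_of_jT K p hcl y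

/-- `ClTp` is monotone in `T`. -/
theorem ClTp.mono {K : Type} [Field K] [NumberField K] {p : ℕ} {T T' : Set Nat.Primes}
    (h : ClTp K p T) (hTT' : T ⊆ T') : ClTp K p T' := by
  intro y
  obtain ⟨c, a, w, ha, hy⟩ := h y
  refine ⟨c, a, w, ?_, hy⟩
  intro r hr
  exact ha r (fun hrT => hr (hTT' hrT))

/-- The predicate `CT p T N` of `ArithNodesOut`: `Cl_T(K_N) = 0` for the fixed field `K_N` of `N`,
in main's working form `GeneratesClassGroup` (every prime outside `T` is principal up to primes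
over `T`).  It implies `Kˣ · J_{K,T} = J_K` (`CT.sup_jT_eq_top`) and `ClTp` (`CT.clTp`). -/
def CT (p : ℕ) (T : Finset Nat.Primes) (N : Subgroup GQ) : Prop :=
  ∀ (F : IntermediateField ℚ Qb) [NumberField ↥F], F.fixingSubgroup = N →
    GeneratesClassGroup ↥F (primesOver ↥F (↑T : Set Nat.Primes))

theorem CT.sup_jT_eq_top {p : ℕ} {T : Finset Nat.Primes} {F : IntermediateField ℚ Qb}
    [NumberField ↥F] (h : CT p T F.fixingSubgroup) :
    principalSubgroup ↥F ⊔ ExistenceModP.jT ↥F (↑T : Set Nat.Primes) = ⊤ :=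
  ExistenceModP.sup_jT_eq_top ↥F (h F rfl)

theorem CT.clTp {p : ℕ} {T : Finset Nat.Primes} {F : IntermediateField ℚ Qb}
    [NumberField ↥F] (h : CT p T F.fixingSubgroup) (p' : ℕ) :
    ClTp ↥F p' (↑T : Set Nat.Primes) :=
  clTp_of_jT ↥F p' h.sup_jT_eq_top

/-- Every level of `globalLevel T` satisfies `CT p T' N` for some finite `T' ⊇ T`. -/
theorem exists_CT (p : ℕ) (T : Finset Nat.Primes) (N : Subgroup GQ)
    (hN : (globalLevel T).IsLevel N) : ∃ T' : Finset Nat.Primes, T ⊆ T' ∧ CT p T' N := by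
  obtain ⟨F₀, -, hF₀, rfl⟩ := hN
  haveI := hF₀.1
  haveI : NumberField ↥F₀ := @NumberField.mk ↥F₀ _ inferInstance hF₀.1
  obtain ⟨T'', hTT'', hfin, hgen, -⟩ :=
    ExistenceModP.exists_finite_superset_generates ↥F₀ (T.finite_toSet)
  refine ⟨hfin.toFinset, ?_, ?_⟩
  · intro r hr
    exact hfin.mem_toFinset.2 (hTT'' (Finset.mem_coe.2 hr))
  · intro F _ hF
    have hFF : F = F₀ := by
      rw [← InfiniteGalois.fixedField_fixingSubgroup F, hF,
        InfiniteGalois.fixedField_fixingSubgroup]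
    subst hFF
    rw [Set.Finite.coe_toFinset]
    exact hgen

section Use

variable {p : ℕ}

/-- **(KUM-Ш) under `CT`.**  `N = Gal(ℚ̄/F)`, `F` a number field unramified outside `T ∋ p`,
`μ_p ⊆ F`, `CT p T N`: an element of `H¹_LC(N, 𝔽_p)` vanishing on all
`N ∩ g · range (primeLocalToGlobal ℓ) · g⁻¹`, `ℓ ∈ T`, is zero. -/
theorem CT.xchar_eq_zero_of_vanish_conj {T : Finset Nat.Primes} {F : IntermediateField ℚ Qb}
    (hCT : CT p T F.fixingSubgroup) (hp : p.Prime) (hp2 : p ≠ 2)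
    (hpT : ∀ r : Nat.Primes, (r : ℕ) = p → r ∈ T) (hF : F.IsUnramifiedOutside T) {ζ : ↥F}
    (hζ : IsPrimitiveRoot ζ p)
    (f : LCSym.XChar ((globalLevel T).comap F.fixingSubgroup.subtype) p)
    (hdie : ∀ ℓ ∈ T, ∀ (g : GQ) (τ : ExtCitation.primeLocalGaloisGroup ℓ)
      (h : g * ExtCitation.primeLocalToGlobal ℓ τ * g⁻¹ ∈ F.fixingSubgroup),
      (f : ↥F.fixingSubgroup → ZMod p) ⟨_, h⟩ = 0) :
    f = 0 := by
  haveI := hF.1
  haveI : NumberField ↥F := @NumberField.mk ↥F _ inferInstance hF.1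
  exact Base.xchar_eq_zero_of_vanish_conj F hp hp2 hpT hF hζ (hCT.clTp p) f hdie

/-- **(KUM-Ш) under `CT`, vector-valued form.** -/
theorem CT.hom_eq_one_of_dies {T : Finset Nat.Primes} {F : IntermediateField ℚ Qb}
    (hCT : CT p T F.fixingSubgroup) (hp : p.Prime) (hp2 : p ≠ 2)
    (hpT : ∀ r : Nat.Primes, (r : ℕ) = p → r ∈ T) (hF : F.IsUnramifiedOutside T) {ζ : ↥F}
    (hζ : IsPrimitiveRoot ζ p) {A : Type*} [AddCommGroup A] [Module (ZMod p) A]
    (χ : ↥F.fixingSubgroup →* Multiplicative A)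
    (hχ : ((globalLevel T).comap F.fixingSubgroup.subtype).IsOpen χ.ker)
    (hdie : ∀ r ∈ T, ∀ σ : GQ, ∀ γ : ↥(locSub (r : ℕ) σ F.fixingSubgroup),
      χ (locHom (r : ℕ) σ F.fixingSubgroup γ) = 1) :
    χ = 1 := by
  haveI := hF.1
  haveI : NumberField ↥F := @NumberField.mk ↥F _ inferInstance hF.1
  exact Base.hom_eq_one_of_dies F hp hp2 hpT hF hζ (hCT.clTp p) χ hχ hdie

end Use

section Level

variable {p : ℕ}

/-- If `Gal(ℚ̄/F)` fixes `μ_p` then `F` contains a primitive `p`-th root of unity. -/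
theorem exists_primitiveRoot_of_fixes (hp : p.Prime) (F : IntermediateField ℚ Qb)
    (hζ : ∀ g ∈ F.fixingSubgroup, ∀ ζ : Qb, ζ ^ p = 1 → g ζ = ζ) :
    ∃ ζ : ↥F, IsPrimitiveRoot ζ p := by
  haveI : NeZero p := ⟨hp.ne_zero⟩
  obtain ⟨ζ₀, hζ₀⟩ : ∃ ζ : Qb, IsPrimitiveRoot ζ p :=
    HasEnoughRootsOfUnity.exists_primitiveRoot Qb p
  have hmem : ζ₀ ∈ F := by
    rw [← InfiniteGalois.fixedField_fixingSubgroup F, IntermediateField.mem_fixedField_iff]
    intro g hg
    exact hζ g hg ζ₀ hζ₀.pow_eq_one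
  exact ⟨⟨ζ₀, hmem⟩, IsPrimitiveRoot.of_map_of_injective (f := F.val) hζ₀ F.val.injective⟩

/-- **(KUM-Ш) for a level `N` of `globalLevel T`**, in the shape of `ArithNodesOut`: `p` odd,
`p ∈ T`, `N` fixes `μ_p`, `CT p T N`.  A homomorphism `χ : N → A` (`A` an `𝔽_p`-vector space) with
open kernel which is trivial on all `N ∩ g · range (primeLocalToGlobal ℓ) · g⁻¹`, `ℓ ∈ T`, `g ∈ G_ℚ`,
is trivial. -/
theorem hom_eq_one_of_vanish_conj_of_CT [Fact p.Prime] (hp2 : p ≠ 2) (T : Finset Nat.Primes)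
    (hpT : ExtCitation.pPrime p ∈ T) (N : Subgroup GQ) (hN : (globalLevel T).IsLevel N)
    (hζ : ∀ g ∈ N, ∀ ζ : Qb, ζ ^ p = 1 → g ζ = ζ) (hCT : CT p T N)
    {A : Type*} [AddCommGroup A] [Module (ZMod p) A] (χ : ↥N →* Multiplicative A)
    (hχ : ((globalLevel T).comap N.subtype).IsOpen χ.ker)
    (hdie : ∀ ℓ ∈ T, ∀ (g : GQ) (τ : ExtCitation.primeLocalGaloisGroup ℓ)
      (h : g * ExtCitation.primeLocalToGlobal ℓ τ * g⁻¹ ∈ N), χ ⟨_, h⟩ = 1) :
    χ = 1 := by
  have hp : p.Prime := Fact.out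
  obtain ⟨F, -, hF, rfl⟩ := hN
  obtain ⟨ζ, hζ'⟩ := exists_primitiveRoot_of_fixes hp F hζ
  have hpT' : ∀ r : Nat.Primes, (r : ℕ) = p → r ∈ T := by
    intro r hr
    have : r = ExtCitation.pPrime p := Subtype.ext hr
    rw [this]
    exact hpT
  refine hCT.hom_eq_one_of_dies hp hp2 hpT' hF hζ' χ hχ ?_
  intro r hr σ γ
  have hγ := γ.2
  rw [mem_locSub] at hγ
  have h1 : σ⁻¹ * ExtCitation.primeLocalToGlobal r (γ : Gq (r : ℕ)) * σ⁻¹⁻¹ ∈
      F.fixingSubgroup := by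
    rw [inv_inv]
    exact hγ
  have h2 := hdie r hr σ⁻¹ (γ : Gq (r : ℕ)) h1
  have h3 : (⟨_, h1⟩ : ↥F.fixingSubgroup) = locHom (r : ℕ) σ F.fixingSubgroup γ := by
    apply Subtype.ext
    rw [coe_locHom]
    show σ⁻¹ * ExtCitation.primeLocalToGlobal r (γ : Gq (r : ℕ)) * σ⁻¹⁻¹ = _
    rw [inv_inv]
    rfl
  rw [← h3]
  exact h2

end Level

end Fermat.Agent.TW.Euler.Base

end
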