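import Mathlib
import Fermat.Agent.TW.Euler.Base.ClassT
import Fermat.Agent.CFT.Global.ValESBridge

/-!
# Program G, base case: `Cl_T(K) = 0` ⟹ elements with `p ∣ ord_P` outside `T` are `T`-unit times
`p`-th power (the hypothesis `HCl` of the Kummer node)

* `exists_unit_mul_pow_of_dvd_ordAt` : ideal form;
* `exists_unit_mul_pow_of_norm` : norm form for a number field with value groups `q^ℤ` outside `T`;
* `hcl_of_CT` : Prelude valuation form for `F ⊆ ℚ̄` unramified outside `T`, under `CT p T N`.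
-/

set_option autoImplicit false
set_option linter.unusedSectionVars false
set_option linter.style.haveILetI false
set_option linter.unusedVariables false

open scoped NumberField

noncomputable section

namespace Fermat.Agent.TW.Euler.Base

open Fermat.Agent.CFT Fermat.Agent.CFT.PT Fermat.Agent.CFT.KummerLocal
  Fermat.Agent.CFT.GaloisTower Fermat.Agent.CFT.IdeleDict Fermat.Agent.S55
  NumberField IsDedekindDomain

local notation "Qb" => AlgebraicClosure ℚ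
local notation "GQ" => (AlgebraicClosure ℚ ≃ₐ[ℚ] AlgebraicClosure ℚ)

section Ideal

variable {K : Type} [Field K] [NumberField K]

theorem finite_setOf_ordAt_ne_zero (x : Kˣ) :
    {P : HeightOneSpectrum (𝓞 K) | ordAt P x ≠ 0}.Finite := by
  have h := finite_setOf_ideleOrd_ne_zero (principalIdele_mem_ideleGroup x)
  refine h.subset ?_
  intro P hP
  show ideleOrd (principalIdele K x) P ≠ 0
  rw [ideleOrd_principal]
  exact hP

theorem mem_unit_iff_ordAt (S : Set (HeightOneSpectrum (𝓞 K))) (y : Kˣ) :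
    y ∈ S.unit K ↔ ∀ P : HeightOneSpectrum (𝓞 K), P ∉ S → ordAt P y = 0 := by
  rw [← principalIdele_mem_ideleOutside_iff, mem_ideleOutside]
  refine forall_congr' fun P => forall_congr' fun _ => ?_
  rw [ideleOrd_principal]

/-- **`Cl_S(K) = 0`, ideal form.**  If `p ∣ ord_P x` for all `P ∉ S`, then `x = u · c ^ p` with `u`
an `S`-unit. -/
theorem exists_unit_mul_pow_of_dvd_ordAt {S : Set (HeightOneSpectrum (𝓞 K))}
    (hS : GeneratesClassGroup K S) (p : ℕ) (x : Kˣ)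
    (h : ∀ P : HeightOneSpectrum (𝓞 K), P ∉ S → (p : ℤ) ∣ ordAt P x) :
    ∃ c u : Kˣ, u ∈ S.unit K ∧ x = u * c ^ p := by
  classical
  choose g hg1 hg2 using hS
  let g' : HeightOneSpectrum (𝓞 K) → Kˣ := fun P => if h : P ∉ S then g P h else 1
  have hg'1 : ∀ P, P ∉ S → ordAt P (g' P) = 1 := by
    intro P hP
    simp only [g', dif_pos hP]
    exact hg1 P hP
  have hg'2 : ∀ P, P ∉ S → ∀ Q, Q ∉ S → Q ≠ P → ordAt Q (g' P) = 0 := by
    intro P hP Q hQ hQP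
    simp only [g', dif_pos hP]
    exact hg2 P hP Q hQ hQP
  set B : Finset (HeightOneSpectrum (𝓞 K)) :=
    (finite_setOf_ordAt_ne_zero x).toFinset.filter (fun P => P ∉ S) with hB
  have hBmem : ∀ P, P ∈ B ↔ ordAt P x ≠ 0 ∧ P ∉ S := by
    intro P
    rw [hB, Finset.mem_filter, Set.Finite.mem_toFinset]
    exact Iff.rfl
  set c : Kˣ := ∏ P ∈ B, g' P ^ (ordAt P x / (p : ℤ)) with hc
  refine ⟨c, x / c ^ p, ?_, by rw [div_mul_cancel]⟩
  rw [mem_unit_iff_ordAt]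
  intro Q hQ
  rw [ordAt_div, ordAt_pow, hc, ordAt_prod, sub_eq_zero]
  by_cases hQB : Q ∈ B
  · rw [Finset.sum_eq_single_of_mem Q hQB]
    · rw [ordAt_zpow, hg'1 Q hQ, mul_one, Int.mul_ediv_cancel' (h Q hQ)]
    · intro P hPB hPQ
      rw [ordAt_zpow, hg'2 P ((hBmem P).mp hPB).2 Q hQ (Ne.symm hPQ), mul_zero]
  · have h0 : ordAt Q x = 0 := by
      by_contra hne
      exact hQB ((hBmem Q).mpr ⟨hne, hQ⟩)
    rw [h0]
    symm
    apply mul_eq_zero_of_right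
    apply Finset.sum_eq_zero
    intro P hPB
    have hPQ : Q ≠ P := fun h => hQB (h ▸ hPB)
    rw [ordAt_zpow, hg'2 P ((hBmem P).mp hPB).2 Q hQ hPQ, mul_zero]

end Ideal

section Norm

variable {K : Type} [Field K] [NumberField K]

/-- If the value group of `K_τ` is `q^ℤ` then `e(P_τ | q) = 1`. -/
theorem ramIdx_eq_one_of_valueGroup {q : ℕ} [Fact q.Prime] (τ : LocalEmb q K)
    (hV : ∀ y : PadicAlgCl q, y ∈ localFieldAt τ → y ≠ 0 → ∃ n : ℤ, ‖y‖ = ((q : ℝ)⁻¹) ^ n) :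
    ramIdx τ = 1 := by
  have h1 := norm_emb_zpow_ramIdx τ (uniformizer (primeOfH τ))
  rw [ordAt_uniformizer] at h1
  obtain ⟨k, hk⟩ := hV (τ ((uniformizer (primeOfH τ) : Kˣ) : K)) (apply_mem_localFieldAt τ _)
    ((map_ne_zero τ).2 (uniformizer (primeOfH τ)).ne_zero)
  rw [hk, ← zpow_mul] at h1
  have h2 : k * ramIdx τ = 1 := zpow_right_injective₀ inv_prime_pos inv_prime_ne_one h1
  exact Int.eq_one_of_dvd_one (ramIdx_pos τ).le ⟨k, by rw [mul_comm]; exact h2.symm⟩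

/-- **`Cl_T(K) = 0`, norm form.**  `K` with value groups `r^ℤ` at the embeddings over `r ∉ T`
(`K` unramified outside `T`); if `‖τ x‖ ∈ r^{pℤ}` for all such `τ`, then `x = u · c ^ p` with `u` a
`T`-unit. -/
theorem exists_unit_mul_pow_of_norm {T : Set Nat.Primes}
    (hT : GeneratesClassGroup K (primesOver K T)) (p : ℕ) (x : Kˣ)
    (hV : ∀ r : Nat.Primes, r ∉ T → ∀ τ : LocalEmb (r : ℕ) K, ∀ y : PadicAlgCl (r : ℕ),
      y ∈ localFieldAt τ → y ≠ 0 → ∃ n : ℤ, ‖y‖ = (((r : ℕ) : ℝ)⁻¹) ^ n)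
    (hx : ∀ r : Nat.Primes, r ∉ T → ∀ τ : LocalEmb (r : ℕ) K,
      ∃ n : ℤ, ‖τ (x : K)‖ = (((r : ℕ) : ℝ)⁻¹) ^ ((p : ℤ) * n)) :
    ∃ c u : Kˣ, u ∈ (primesOver K T).unit K ∧ x = u * c ^ p := by
  refine exists_unit_mul_pow_of_dvd_ordAt hT p x ?_
  intro P hP
  obtain ⟨r, τ, rfl⟩ := exists_emb P
  have hr : r ∉ T := fun h => hP ((primeOfH_mem_primesOver_iff τ).2 h)
  have he := ramIdx_eq_one_of_valueGroup τ (hV r hr τ)
  have h1 := norm_emb_zpow_ramIdx τ x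
  rw [he, zpow_one] at h1
  obtain ⟨n, hn⟩ := hx r hr τ
  rw [hn] at h1
  have h2 : (p : ℤ) * n = ordAt (primeOfH τ) x :=
    zpow_right_injective₀ inv_prime_pos inv_prime_ne_one h1
  exact ⟨n, h2.symm⟩

end Norm

section Prelude

local instance instIsGaloisQbClassTPow : IsGalois ℚ Qb :=
  Fermat.Agent.S54.FrobExists.isGalois_rat_algebraicClosure

/-- From the Prelude valuation at `A = embPlace τ'` to the norm at `τ'`. -/
theorem norm_eq_zpow_of_embPlace_valuation {q : ℕ} [Fact q.Prime] (τ' : LocalEmb q Qb) {x : Qb}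
    (hx0 : x ≠ 0) {m : ℤ}
    (h : (embPlace τ').valuation x = (embPlace τ').valuation ((q : ℕ) : Qb) ^ m) :
    ‖τ' x‖ = ((q : ℝ)⁻¹) ^ m := by
  have hq0 : ((q : ℕ) : Qb) ≠ 0 := by
    exact_mod_cast (Fact.out : q.Prime).ne_zero
  have h1 : (embPlace τ').valuation (x / ((q : ℕ) : Qb) ^ m) = 1 := by
    rw [map_div₀, map_zpow₀, h, div_self]
    exact zpow_ne_zero _ ((Valuation.ne_zero_iff _).2 hq0)
  rw [embPlace_valuation_eq_one_iff, map_div₀, map_zpow₀, norm_div, norm_zpow,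
    norm_emb_natCast_self] at h1
  have hpos : (0 : ℝ) < ((q : ℝ)⁻¹) ^ m := zpow_pos inv_prime_pos _
  rwa [div_eq_one_iff_eq hpos.ne'] at h1

/-- **`HCl` from `CT`.**  `F ⊆ ℚ̄` unramified outside `T` with `CT p T Gal(ℚ̄/F)` (`Cl_T(F) = 0`).
An `x ∈ Fˣ` whose valuations at all valuation subrings of `ℚ̄` over the primes `q ∉ T` are divisible
by `p` is a `T`-unit of `F` times a `p`-th power in `F`.  (Literally the body of helper17's
`Kummer.HCl p T F.fixingSubgroup`.) -/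
theorem hcl_of_CT {p : ℕ} {T : Finset Nat.Primes} (F : IntermediateField ℚ Qb)
    (hF : F.IsUnramifiedOutside T) (hCT : CT p T F.fixingSubgroup) :
    ∀ x : Qb, x ≠ 0 → (∀ σ ∈ F.fixingSubgroup, σ x = x) →
      (∀ q : Nat.Primes, q ∉ T → ∀ A : ValuationSubring Qb, A.LiesOverPrime (q : ℕ) →
        ∃ n : ℤ, A.valuation x = A.valuation ((q : ℕ) : Qb) ^ ((p : ℤ) * n)) →
      ∃ (y : Qb) (u : Qbˣ), y ≠ 0 ∧ (∀ σ ∈ F.fixingSubgroup, σ y = y) ∧
        (u ∈ valES T ∧ ∀ σ ∈ F.fixingSubgroup, σ (u : Qb) = (u : Qb)) ∧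
        x = (u : Qb) * y ^ p := by
  intro x hx0 hxfix hval
  haveI := hF.1
  haveI : NumberField ↥F := @NumberField.mk ↥F _ inferInstance hF.1
  have hxF : x ∈ F := by
    rw [← InfiniteGalois.fixedField_fixingSubgroup F, IntermediateField.mem_fixedField_iff]
    exact hxfix
  have hfixF : ∀ z : ↥F, ∀ σ ∈ F.fixingSubgroup, σ (z : Qb) = (z : Qb) := by
    intro z σ hσ
    rw [IntermediateField.mem_fixingSubgroup_iff] at hσ
    exact hσ _ z.2
  let x' : (↥F)ˣ := Units.mk0 ⟨x, hxF⟩ (fun h => hx0 (congrArg Subtype.val h))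
  have hV : ∀ r : Nat.Primes, r ∉ (↑T : Set Nat.Primes) → ∀ τ : LocalEmb (r : ℕ) ↥F,
      ∀ y : PadicAlgCl (r : ℕ), y ∈ localFieldAt τ → y ≠ 0 →
        ∃ n : ℤ, ‖y‖ = (((r : ℕ) : ℝ)⁻¹) ^ n := by
    intro r hr τ y hy hy0
    exact exists_norm_eq_zpow_of_isUnramifiedOutside hF (fun h => hr (Finset.mem_coe.2 h))
      (F.val : ↥F →+* Qb) (fun z => z.2) τ y hy hy0
  have hx : ∀ r : Nat.Primes, r ∉ (↑T : Set Nat.Primes) → ∀ τ : LocalEmb (r : ℕ) ↥F,
      ∃ n : ℤ, ‖τ ((x' : (↥F)ˣ) : ↥F)‖ = (((r : ℕ) : ℝ)⁻¹) ^ ((p : ℤ) * n) := by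
    intro r hr τ
    obtain ⟨σ, rfl⟩ := exists_embAtF_eq (r : ℕ) F τ
    obtain ⟨n, hn⟩ := hval r (fun h => hr (Finset.mem_coe.2 h)) (embPlace (embAt (r : ℕ) σ))
      (embPlace_liesOverPrime _)
    exact ⟨n, norm_eq_zpow_of_embPlace_valuation (embAt (r : ℕ) σ) hx0 hn⟩
  obtain ⟨c, u, hu, hxu⟩ := exists_unit_mul_pow_of_norm (K := ↥F) (T := (↑T : Set Nat.Primes))
    (hCT F rfl) p x' hV hx
  have hu0 : (((u : (↥F)ˣ) : ↥F) : Qb) ≠ 0 := fun h => u.ne_zero (Subtype.ext h)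
  refine ⟨(((c : (↥F)ˣ) : ↥F) : Qb), Units.mk0 _ hu0, fun h => c.ne_zero (Subtype.ext h),
    hfixF _, ⟨?_, hfixF _⟩, ?_⟩
  · rw [mem_valES_iff]
    refine ⟨le_QS_of_isUnramifiedOutside hF (((u : (↥F)ˣ) : ↥F)).2, ?_⟩
    intro q hq A hA
    refine valuation_eq_one_of_forall_norm_emb_eq_one A hA ?_
    intro τ''
    exact norm_emb_eq_one_of_mem_unit ↥F hu q (fun h => hq (Finset.mem_coe.1 h))
      (localEmbRestrict ↥F τ'')
  · have := congrArg (fun t : (↥F)ˣ => (((t : (↥F)ˣ) : ↥F) : Qb)) hxu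
    simpa [x'] using this

end Prelude

end Fermat.Agent.TW.Euler.Base

end
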