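import Mathlib
import Fermat.Agent.TW.Euler.Base.ClassTPow
import Fermat.Agent.TW.Euler.Base.Arith.Assembly

/-!
# Program G, base case: the nodes `CTExistsOut`, `KumShaOut` and `HCl` of the `ArithNodesOut`
integrator (`Base/Arith/{Defs,Contracts,Assembly}.lean`, helper17), proved literally

* `ct_iff` : the integrator's `Euler.CT` (∃-form) is equivalent to `Base.CT` (∀-form);
* `ctExistsOut : CTExistsOut`;
* `kumShaOut : KumShaOut`;
* `hcl_of_eulerCT` : `Euler.CT p T N → Kummer.HCl p T N` for a level `N`.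
-/

set_option autoImplicit false
set_option linter.unusedSectionVars false
set_option linter.style.haveILetI false
set_option linter.unusedVariables false

noncomputable section

namespace Fermat.Agent.TW.Euler.Base

open Fermat.Agent.CFT Fermat.Agent.CFT.IdeleDict Fermat.Agent.S55 ExtCitation

local notation "Qb" => AlgebraicClosure ℚ
local notation "GQ" => (AlgebraicClosure ℚ ≃ₐ[ℚ] AlgebraicClosure ℚ)

local instance instIsGaloisQbArithKum : IsGalois ℚ Qb :=
  Fermat.Agent.S54.FrobExists.isGalois_rat_algebraicClosure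

/-- The integrator's `CT` (∃-form) implies `Base.CT` (∀-form). -/
theorem ct_of_eulerCT {p : ℕ} {T : Finset Nat.Primes} {N : Subgroup GQ}
    (h : Fermat.Agent.TW.Euler.CT p T N) : CT p T N := by
  obtain ⟨F₀, _, hF₀, hgen⟩ := h
  intro F _ hF
  have hFF : F = F₀ := by
    rw [← InfiniteGalois.fixedField_fixingSubgroup F, hF, ← hF₀,
      InfiniteGalois.fixedField_fixingSubgroup]
  subst hFF
  exact hgen

/-- `Base.CT` (∀-form) implies the integrator's `CT` (∃-form) for a level. -/
theorem eulerCT_of_ct {p : ℕ} {T T' : Finset Nat.Primes} {N : Subgroup GQ}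
    (hN : (globalLevel T).IsLevel N) (h : CT p T' N) : Fermat.Agent.TW.Euler.CT p T' N := by
  obtain ⟨F₀, -, hF₀, rfl⟩ := hN
  haveI := hF₀.1
  haveI : NumberField ↥F₀ := @NumberField.mk ↥F₀ _ inferInstance hF₀.1
  exact ⟨F₀, inferInstance, rfl, h F₀ rfl⟩

/-- **`CTExistsOut`**, literally. -/
theorem ctExistsOut : Fermat.Agent.TW.Euler.CTExistsOut := by
  intro p _ T N hN
  obtain ⟨T', hTT', hCT⟩ := exists_CT p T N hN
  exact ⟨T', hTT', eulerCT_of_ct hN hCT⟩

/-- **`KumShaOut`**, literally. -/
theorem kumShaOut : Fermat.Agent.TW.Euler.KumShaOut := by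
  intro p _ hp2 T hpT N _ hN hζ hCT k' _ _ _ χ hadd hlc hvan
  have h0 : χ 1 = 0 := by
    have := hadd 1 1
    rw [mul_one] at this
    exact left_eq_add.mp this
  let χm : ↥N →* Multiplicative k' :=
    { toFun := fun n => Multiplicative.ofAdd (χ n)
      map_one' := by rw [h0]; rfl
      map_mul' := fun a b => by rw [hadd a b]; rfl }
  have hopen : ((globalLevel T).comap N.subtype).IsOpen χm.ker := by
    obtain ⟨V, hV, hconst⟩ := hlc
    refine ⟨V, hV, fun s hs => ?_⟩
    rw [MonoidHom.mem_ker]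
    show Multiplicative.ofAdd (χ s) = 1
    have := hconst 1 s hs
    rw [one_mul, h0] at this
    rw [this]
    rfl
  have h1 : χm = 1 := by
    refine hom_eq_one_of_vanish_conj_of_CT hp2 T hpT N hN hζ (ct_of_eulerCT hCT) χm hopen ?_
    intro ℓ hℓ g τ h
    show Multiplicative.ofAdd (χ ⟨_, h⟩) = 1
    rw [hvan ℓ hℓ g τ h]
    rfl
  funext n
  have := congrArg (fun ψ : ↥N →* Multiplicative k' => Multiplicative.toAdd (ψ n)) h1
  exact this

/-- `HCl` of the Kummer node from the integrator's `CT`, for a level `N`. -/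
theorem hcl_of_eulerCT {p : ℕ} {T : Finset Nat.Primes} {N : Subgroup GQ}
    (hN : (globalLevel T).IsLevel N) (hCT : Fermat.Agent.TW.Euler.CT p T N) :
    Fermat.Agent.TW.Euler.Kummer.HCl p T N := by
  have h := ct_of_eulerCT hCT
  obtain ⟨F, -, hF, rfl⟩ := hN
  exact hcl_of_CT F hF h

end Fermat.Agent.TW.Euler.Base

end
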