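import Mathlib
import Fermat.Agent.TW.Euler.Base.Arith.Defs
import Fermat.Agent.Res.CycloModP

/-!
# Program G, base case, node (4d): adapters (U1), (U2) for `UnitEigOut`

Vocabulary of the `ArithNodesOut` integrator (`Base/Arith/Defs.lean`): `unitAct`, `unitEig`,
`omegaD`.  `D ≤ Ḡ = GQ ⧸ N` generated by the class of `σ ∈ G_ℚ`.

* `unitAct_one`, `unitAct_mul`, `unitAct_of_mem` : `g ↦ unitAct T N g` is multiplicative and trivial
  on `N`;
* **(U1)** `unitEig_eq_eigenspace` : `unitEig T N D θ` is the `θ(σ̄)`-eigenspace of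
  `unitAct T N σ ⊗ k'`;
* **(U2)** `exists_primitiveRoot_omegaD` : there are a primitive `p`-th root of unity `ξ` (fixed by
  `N`) and `c : ℕ` with `σ ξ = ξ ^ c` and `(c : k') = omegaD N hζ D k' σ̄`;
  `eq_omegaD_iff`, `eq_one_iff_apply_gen` : a character of `D` is determined by its value at `σ̄`.
-/

set_option autoImplicit false
set_option linter.unusedSectionVars false
set_option linter.style.haveILetI false
set_option linter.unusedVariables false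

open TensorProduct ExtCitation
open Fermat.Agent.CFT Fermat.Agent.S55

noncomputable section

namespace Fermat.Agent.TW.Euler.Base

local notation "Qb" => AlgebraicClosure ℚ
local notation "GQ" => (AlgebraicClosure ℚ ≃ₐ[ℚ] AlgebraicClosure ℚ)

section UnitAct

variable (T : Finset Nat.Primes) (N : Subgroup GQ) [N.Normal]

theorem unitAct_ext {f g : Additive ↥(Kummer.tUnits T N) →+ Additive ↥(Kummer.tUnits T N)}
    (h : ∀ u : Additive ↥(Kummer.tUnits T N),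
      (((Additive.toMul (f u) : ↥(Kummer.tUnits T N)) : Qbˣ) : Qb) =
        (((Additive.toMul (g u) : ↥(Kummer.tUnits T N)) : Qbˣ) : Qb)) : f = g := by
  refine AddMonoidHom.ext fun u => ?_
  apply Additive.toMul.injective
  apply Subtype.ext
  apply Units.ext
  exact h u

theorem unitAct_one : unitAct T N 1 = AddMonoidHom.id _ :=
  unitAct_ext T N fun u => by
    rw [unitAct_apply]
    rfl

theorem unitAct_mul (g h : GQ) : unitAct T N (g * h) = (unitAct T N g).comp (unitAct T N h) :=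
  unitAct_ext T N fun u => by
    rw [unitAct_apply, AddMonoidHom.comp_apply, unitAct_apply, unitAct_apply]
    rfl

theorem unitAct_of_mem {n : GQ} (hn : n ∈ N) : unitAct T N n = AddMonoidHom.id _ :=
  unitAct_ext T N fun u => by
    rw [unitAct_apply]
    exact (Additive.toMul u).2.2 n hn

end UnitAct

section U1

variable (T : Finset Nat.Primes) (N : Subgroup GQ) [N.Normal] (D : Subgroup (GQ ⧸ N))
  {k' : Type} [Field k'] (θ : D →* k'ˣ)

theorem baseChange_unitAct_one :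
    (unitAct T N 1).toIntLinearMap.baseChange k' = LinearMap.id := by
  rw [unitAct_one]
  exact LinearMap.baseChange_id

theorem baseChange_unitAct_mul (g h : GQ) :
    (unitAct T N (g * h)).toIntLinearMap.baseChange k' =
      (unitAct T N g).toIntLinearMap.baseChange k' ∘ₗ
        (unitAct T N h).toIntLinearMap.baseChange k' := by
  rw [unitAct_mul, ← LinearMap.baseChange_comp]
  rfl

theorem baseChange_unitAct_of_mem {n : GQ} (hn : n ∈ N) :
    (unitAct T N n).toIntLinearMap.baseChange k' = LinearMap.id := by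
  rw [unitAct_of_mem T N hn]
  exact LinearMap.baseChange_id

/-- The elements `g` of `D̃ = D.comap mk` acting on `a` through `θ`, as a subgroup of `G_ℚ`. -/
def eigSubgroup (a : k' ⊗[ℤ] Additive ↥(Kummer.tUnits T N)) : Subgroup GQ where
  carrier := {g | ∃ hg : (QuotientGroup.mk g : GQ ⧸ N) ∈ D,
    (unitAct T N g).toIntLinearMap.baseChange k' a = ((θ ⟨_, hg⟩ : k'ˣ) : k') • a}
  one_mem' := by
    refine ⟨by rw [QuotientGroup.mk_one]; exact D.one_mem, ?_⟩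
    rw [baseChange_unitAct_one, LinearMap.id_apply]
    have : (⟨((1 : GQ) : GQ ⧸ N), by rw [QuotientGroup.mk_one]; exact D.one_mem⟩ : D) = 1 :=
      Subtype.ext (QuotientGroup.mk_one N)
    rw [this, map_one, Units.val_one, one_smul]
  mul_mem' := by
    rintro g h ⟨hg, hga⟩ ⟨hh, hha⟩
    have hgh : ((g * h : GQ) : GQ ⧸ N) ∈ D := by
      rw [QuotientGroup.mk_mul]; exact D.mul_mem hg hh
    refine ⟨hgh, ?_⟩
    rw [baseChange_unitAct_mul, LinearMap.comp_apply, hha, map_smul, hga, smul_smul]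
    have : (⟨((g * h : GQ) : GQ ⧸ N), hgh⟩ : D) = ⟨_, hg⟩ * ⟨_, hh⟩ :=
      Subtype.ext (QuotientGroup.mk_mul N g h)
    rw [this, map_mul, Units.val_mul, mul_comm]
  inv_mem' := by
    rintro g ⟨hg, hga⟩
    have hgi : ((g⁻¹ : GQ) : GQ ⧸ N) ∈ D := by
      rw [QuotientGroup.mk_inv]; exact D.inv_mem hg
    refine ⟨hgi, ?_⟩
    have h1 : (unitAct T N g⁻¹).toIntLinearMap.baseChange k'
        ((unitAct T N g).toIntLinearMap.baseChange k' a) = a := by
      rw [← LinearMap.comp_apply, ← baseChange_unitAct_mul, inv_mul_cancel,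
        baseChange_unitAct_one, LinearMap.id_apply]
    rw [hga, map_smul] at h1
    have h2 : (⟨((g⁻¹ : GQ) : GQ ⧸ N), hgi⟩ : D) = (⟨_, hg⟩ : D)⁻¹ :=
      Subtype.ext (QuotientGroup.mk_inv N g)
    rw [h2, map_inv, Units.val_inv_eq_inv_val]
    have h3 : ((θ ⟨_, hg⟩ : k'ˣ) : k') ≠ 0 := (θ ⟨_, hg⟩).ne_zero
    rw [eq_comm, inv_smul_eq_iff₀ h3]
    exact h1.symm

theorem unitEig_eq_eigenspace_aux (σ : GQ) (hσ : (QuotientGroup.mk σ : GQ ⧸ N) ∈ D)
    (hgen : ∀ d : D, d ∈ Subgroup.zpowers (⟨QuotientGroup.mk σ, hσ⟩ : D)) :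
    unitEig T N D θ =
      Module.End.eigenspace ((unitAct T N σ).toIntLinearMap.baseChange k')
        ((θ ⟨_, hσ⟩ : k'ˣ) : k') := by
  apply le_antisymm
  · intro a ha
    rw [Module.End.mem_eigenspace_iff]
    exact ha σ hσ
  · intro a ha
    rw [Module.End.mem_eigenspace_iff] at ha
    intro g hg
    have hσH : σ ∈ eigSubgroup T N D θ a := ⟨hσ, ha⟩
    have hNH : ∀ n ∈ N, n ∈ eigSubgroup T N D θ a := by
      intro n hn
      have hn1 : ((n : GQ) : GQ ⧸ N) = 1 := (QuotientGroup.eq_one_iff n).2 hn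
      have hnD : ((n : GQ) : GQ ⧸ N) ∈ D := by rw [hn1]; exact D.one_mem
      refine ⟨hnD, ?_⟩
      rw [baseChange_unitAct_of_mem T N hn, LinearMap.id_apply]
      have : (⟨((n : GQ) : GQ ⧸ N), hnD⟩ : D) = 1 := Subtype.ext hn1
      rw [this, map_one, Units.val_one, one_smul]
    obtain ⟨m, hm⟩ := Subgroup.mem_zpowers_iff.1 (hgen ⟨_, hg⟩)
    have hm' : ((σ ^ m : GQ) : GQ ⧸ N) = ((g : GQ) : GQ ⧸ N) := by
      have := congrArg Subtype.val hm
      rw [Subgroup.coe_zpow] at this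
      rw [QuotientGroup.mk_zpow]
      exact this
    have hmem : (σ ^ m)⁻¹ * g ∈ N := QuotientGroup.eq.1 hm'
    have hgH : g ∈ eigSubgroup T N D θ a := by
      have : g = σ ^ m * ((σ ^ m)⁻¹ * g) := by group
      rw [this]
      exact (eigSubgroup T N D θ a).mul_mem ((eigSubgroup T N D θ a).zpow_mem hσH m)
        (hNH _ hmem)
    obtain ⟨_, h⟩ := hgH
    exact h

end U1

/-- **(U1)**: for `D` generated by the class of `σ̃`, `unitEig T N D θ` is the `θ(σ̄)`-eigenspace of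
`unitAct T N σ̃ ⊗ k'`.  (Binder order agreed with helper18.) -/
theorem unitEig_eq_eigenspace (T : Finset Nat.Primes) (N : Subgroup GQ) [N.Normal]
    (D : Subgroup (GQ ⧸ N)) (σ : GQ) (hσ : (QuotientGroup.mk σ : GQ ⧸ N) ∈ D)
    (hgen : ∀ d : D, d ∈ Subgroup.zpowers (⟨QuotientGroup.mk σ, hσ⟩ : D))
    {k' : Type} [Field k'] (θ : D →* k'ˣ) :
    unitEig T N D θ =
      Module.End.eigenspace ((unitAct T N σ).toIntLinearMap.baseChange k')
        ((θ ⟨_, hσ⟩ : k'ˣ) : k') :=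
  unitEig_eq_eigenspace_aux T N D θ σ hσ hgen

section U2

variable {p : ℕ} [Fact p.Prime] (N : Subgroup GQ) [N.Normal]
  (hζ : ∀ g ∈ N, ∀ ζ : Qb, ζ ^ p = 1 → g ζ = ζ) (D : Subgroup (GQ ⧸ N))
  (k' : Type) [Field k'] [Algebra (ZMod p) k']

theorem omegaD_mk (σ : GQ) (hσ : (QuotientGroup.mk σ : GQ ⧸ N) ∈ D) :
    ((omegaD N hζ D k' ⟨_, hσ⟩ : k'ˣ) : k') =
      algebraMap (ZMod p) k' ((cycloChar p σ : (ZMod p)ˣ) : ZMod p) := rfl

/-- (U2) with the extra information that `N` fixes `ξ`. -/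
theorem exists_primitiveRoot_omegaD' (σ : GQ) (hσ : (QuotientGroup.mk σ : GQ ⧸ N) ∈ D) :
    ∃ (ξ : Qb) (c : ℕ), IsPrimitiveRoot ξ p ∧ (∀ n ∈ N, n ξ = ξ) ∧ σ ξ = ξ ^ c ∧
      (c : k') = ((omegaD N hζ D k' ⟨_, hσ⟩ : k'ˣ) : k') := by
  haveI : NeZero p := ⟨(Fact.out : p.Prime).ne_zero⟩
  obtain ⟨ξ, hξ⟩ : ∃ ξ : Qb, IsPrimitiveRoot ξ p :=
    HasEnoughRootsOfUnity.exists_primitiveRoot Qb p
  refine ⟨ξ, ((cycloChar p σ : (ZMod p)ˣ) : ZMod p).val, hξ,
    fun n hn => hζ n hn ξ hξ.pow_eq_one, Fermat.Agent.Res.cycloChar_spec p σ hξ.pow_eq_one, ?_⟩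
  rw [omegaD_mk, ← map_natCast (algebraMap (ZMod p) k'), ZMod.natCast_zmod_val]

/-- **(U2)**: a primitive `p`-th root of unity `ξ` and `c : ℕ` with `σ̃ ξ = ξ ^ c`,
`(c : k') = ω̄_D(σ̄)`.  (Literal shape agreed with helper18.) -/
theorem exists_primitiveRoot_omegaD (σ : GQ) (hσ : (QuotientGroup.mk σ : GQ ⧸ N) ∈ D) :
    ∃ (ξ : Qb) (c : ℕ), IsPrimitiveRoot ξ p ∧ σ ξ = ξ ^ c ∧
      ((c : k') = ((omegaD N hζ D k' ⟨_, hσ⟩ : k'ˣ) : k')) := by
  obtain ⟨ξ, c, h1, -, h3, h4⟩ := exists_primitiveRoot_omegaD' N hζ D k' σ hσ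
  exact ⟨ξ, c, h1, h3, h4⟩

variable {k'}

/-- A character of `D = ⟨σ̄⟩` is determined by its value at `σ̄`. -/
theorem eq_of_apply_gen_eq {θ θ' : D →* k'ˣ} (σ : GQ)
    (hσ : (QuotientGroup.mk σ : GQ ⧸ N) ∈ D)
    (hgen : ∀ d : D, d ∈ Subgroup.zpowers (⟨QuotientGroup.mk σ, hσ⟩ : D))
    (h : θ ⟨_, hσ⟩ = θ' ⟨_, hσ⟩) : θ = θ' := by
  ext d
  obtain ⟨m, hm⟩ := Subgroup.mem_zpowers_iff.1 (hgen d)
  rw [← hm, map_zpow, map_zpow, h]

/-- Two characters of `D = ⟨σ̄⟩` agree iff they agree at `σ̄`. -/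
theorem theta_eq_iff_of_gen (θ θ' : D →* k'ˣ) (σ : GQ)
    (hσ : (QuotientGroup.mk σ : GQ ⧸ N) ∈ D)
    (hgen : ∀ d : D, d ∈ Subgroup.zpowers (⟨QuotientGroup.mk σ, hσ⟩ : D)) :
    θ = θ' ↔ θ ⟨_, hσ⟩ = θ' ⟨_, hσ⟩ :=
  ⟨fun h => by rw [h], eq_of_apply_gen_eq N D σ hσ hgen⟩

/-- `θ = ω̄_D ↔ θ(σ̄) = c` for `c` as in (U2). -/
theorem eq_omegaD_iff (θ : D →* k'ˣ) (σ : GQ) (hσ : (QuotientGroup.mk σ : GQ ⧸ N) ∈ D)
    (hgen : ∀ d : D, d ∈ Subgroup.zpowers (⟨QuotientGroup.mk σ, hσ⟩ : D)) {c : ℕ}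
    (hc : (c : k') = ((omegaD N hζ D k' ⟨_, hσ⟩ : k'ˣ) : k')) :
    θ = omegaD N hζ D k' ↔ ((θ ⟨_, hσ⟩ : k'ˣ) : k') = (c : k') := by
  constructor
  · rintro rfl
    exact hc.symm
  · intro h
    refine eq_of_apply_gen_eq N D σ hσ hgen (Units.ext ?_)
    rw [h, hc]

/-- `θ = 1 ↔ θ(σ̄) = 1`. -/
theorem eq_one_iff_apply_gen (θ : D →* k'ˣ) (σ : GQ) (hσ : (QuotientGroup.mk σ : GQ ⧸ N) ∈ D)
    (hgen : ∀ d : D, d ∈ Subgroup.zpowers (⟨QuotientGroup.mk σ, hσ⟩ : D)) :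
    θ = 1 ↔ ((θ ⟨_, hσ⟩ : k'ˣ) : k') = 1 := by
  constructor
  · rintro rfl
    rfl
  · intro h
    refine eq_of_apply_gen_eq N D σ hσ hgen (Units.ext ?_)
    rw [h]
    rfl

end U2

end Fermat.Agent.TW.Euler.Base

end
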