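import Fermat.Agent.TW.Euler.Assembly
import Mathlib.RepresentationTheory.Coinduced

/-!
# GW-Euler, base case: shared vocabulary

`Ḡ = GQ ⧸ N` for a level `N` of `globalLevel T`, `D ≤ Ḡ` (cyclic of order prime to `p`), `k'` a
finite field of characteristic `p` (an `𝔽_p`-algebra), `φ : D →* k'ˣ`.

* `chiRep φ`        : `D` acting on the `𝔽_p`-vector space `k'` through multiplication by `φ`;
* `baseRep N D φ`   : `Coind_D^Ḡ k'(φ)` (Mathlib's `Representation.coind D.subtype`), a representation
                      of `Ḡ` over `𝔽_p` on `Representation.coindV D.subtype (chiRep φ)`;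
* `baseMod N D φ`   : its inflation to `GQ` (`inflRep`), the module `X_φ`;
* `BaseCharOut`     : `eulerDefect X_φ = 0` for all such data (`N` fixing `μ_p`).
-/

set_option autoImplicit false

open CategoryTheory Module ExtCitation
open Fermat.Agent.CFT Fermat.Agent.S55

namespace Fermat.Agent.TW.Euler

local notation "Qb" => AlgebraicClosure ℚ
local notation "GQ" => (AlgebraicClosure ℚ ≃ₐ[ℚ] AlgebraicClosure ℚ)

section Defs

variable {p : ℕ} [Fact p.Prime]

/-- `D` acting on `k'` (an `𝔽_p`-vector space) through multiplication by the character `φ`. -/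
def chiRep {D : Type} [Group D] {k' : Type} [Field k'] [Algebra (ZMod p) k'] (φ : D →* k'ˣ) :
    Representation (ZMod p) D k' where
  toFun d := LinearMap.mulLeft (ZMod p) ((φ d : k'ˣ) : k')
  map_one' := by
    apply LinearMap.ext
    intro x
    simp
  map_mul' d d' := by
    apply LinearMap.ext
    intro x
    simp

@[simp] lemma chiRep_apply {D : Type} [Group D] {k' : Type} [Field k'] [Algebra (ZMod p) k']
    (φ : D →* k'ˣ) (d : D) (x : k') : chiRep (p := p) φ d x = ((φ d : k'ˣ) : k') * x := rfl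

variable (N : Subgroup GQ) [N.Normal] (D : Subgroup (GQ ⧸ N)) {k' : Type} [Field k']
  [Algebra (ZMod p) k']

/-- `Coind_D^Ḡ k'(φ)` as a representation of `Ḡ = GQ ⧸ N` over `𝔽_p`. -/
noncomputable def baseRep (φ : D →* k'ˣ) :
    Representation (ZMod p) (GQ ⧸ N) (Representation.coindV D.subtype (chiRep (p := p) φ)) :=
  Representation.coind D.subtype (chiRep φ)

/-- The module `X_φ`: inflation to `GQ` of `Coind_D^Ḡ k'(φ)`. -/
noncomputable def baseMod (φ : D →* k'ˣ) : Rep (ZMod p) GQ := inflRep N (baseRep N D φ)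

variable {T : Finset Nat.Primes}

theorem isSmooth_baseMod (hN : (globalLevel T).IsLevel N) (φ : D →* k'ˣ) :
    IsSmooth (globalLevel T) (baseMod (p := p) N D φ) :=
  isSmooth_inflRep N hN _

end Defs

/-- **The base case for characters**: `eulerDefect X_φ = 0`. -/
def BaseCharOut : Prop :=
  ∀ (p : ℕ) [Fact p.Prime], p ≠ 2 → ∀ (T : Finset Nat.Primes), pPrime p ∈ T →
    ∀ (N : Subgroup GQ) [N.Normal] (hN : (globalLevel T).IsLevel N),
      (∀ g ∈ N, ∀ ζ : Qb, ζ ^ p = 1 → g ζ = ζ) →
      ∀ (D : Subgroup (GQ ⧸ N)), IsCyclic D → ¬ p ∣ Nat.card D →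
      ∀ (k' : Type) [Field k'] [Finite k'] [Algebra (ZMod p) k'] (φ : D →* k'ˣ),
        eulerDefect (isSmooth_baseMod (p := p) N D hN φ) = 0

/-- **(CHAR-RED)** the reduction of the base case to characters, as a contract:
given an additive invariant `Φ` of `Ḡ`-representations (`Ḡ` finite, `k = 𝔽_p`) vanishing on all
`Coind_D^Ḡ k'(φ)` (`D` fixed cyclic of order prime to `p`), it vanishes on all
`X ⊗ 𝔽_p[Ḡ/D] = permTwist ρ (Ḡ ⧸ D)`. -/
def CharRedOut : Prop :=
  ∀ (p : ℕ) [Fact p.Prime] (G : Type) [Group G] [Finite G] (Φ : AddInv (ZMod p) G)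
    (D : Subgroup G), IsCyclic D → ¬ p ∣ Nat.card D →
    (∀ (k' : Type) [Field k'] [Finite k'] [Algebra (ZMod p) k'] (φ : D →* k'ˣ),
      Φ.val (Representation.coindV D.subtype (chiRep (p := p) φ))
        (Representation.coind D.subtype (chiRep φ)) = 0) →
    ∀ (V : Type) [AddCommGroup V] [Module (ZMod p) V] [Module.Finite (ZMod p) V]
      (ρ : Representation (ZMod p) G V), Φ.val (G ⧸ D → V) (permTwist ρ (G ⧸ D)) = 0

end Fermat.Agent.TW.Euler

namespace Fermat.Agent.TW.Euler

local notation "GQ" => (AlgebraicClosure ℚ ≃ₐ[ℚ] AlgebraicClosure ℚ)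

/-- The base case from its reduction to characters. -/
theorem baseOut_of (hfin : FinOut) (hsurj : H2SurjOut) (hred : CharRedOut)
    (hchar : BaseCharOut) : BaseOut := by
  intro p _ hp2 T hpT N _ hN hζ D hD hpD V _ _ _ ρ
  have : N.FiniteIndex := (globalLevel T).finiteIndex hN
  have : Finite (GQ ⧸ N) := Subgroup.finite_quotient_of_finiteIndex
  exact hred p (GQ ⧸ N) (defectInv hp2 hpT hfin hsurj N hN) D hD hpD
    (fun k' _ _ _ φ => hchar p hp2 T hpT N hN hζ D hD hpD k' φ) V ρ

end Fermat.Agent.TW.Euler
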