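import Fermat.Agent.TW.Euler.Base.Contracts

/-!
# GW-Euler, node (ARCH): `hInf M + hInf M^∨(1) = dim M` for odd `p`

Complex conjugation acts on `μ_p` by inversion, so `cycloChar p c = -1`; on the dual twist it acts
by `f ↦ -(f ∘ c)`, whose fixed space is the annihilator of `range (c + 1) = ker (c - 1)`.
-/

set_option autoImplicit false

open CategoryTheory Module ExtCitation
open Fermat.Agent.CFT Fermat.Agent.S55

namespace Fermat.Agent.TW.Euler

local notation "Qb" => AlgebraicClosure ℚ
local notation "GQ" => (AlgebraicClosure ℚ ≃ₐ[ℚ] AlgebraicClosure ℚ)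

/-- Complex conjugation inverts the roots of unity. -/
theorem complexConjugation_root {n : ℕ} (hn : n ≠ 0) (ζ : Qb) (hζ : ζ ^ n = 1) :
    complexConjugation ζ = ζ⁻¹ := by
  apply complexEmbedding.toRingHom.injective
  show complexEmbedding (complexConjugation ζ) = complexEmbedding ζ⁻¹
  rw [complexEmbedding_complexConjugation, map_inv₀]
  have h1 : (complexEmbedding ζ) ^ n = 1 := by rw [← map_pow, hζ, map_one]
  have h2 : ‖complexEmbedding ζ‖ = 1 := Complex.norm_eq_one_of_pow_eq_one h1 hn
  rw [Complex.inv_def, Complex.normSq_eq_norm_sq, h2]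
  simp

variable {p : ℕ} [Fact p.Prime]

/-- `χ_p(c) = -1`. -/
theorem cycloChar_complexConjugation :
    ((cycloChar p complexConjugation : (ZMod p)ˣ) : ZMod p) = -1 := by
  have hp : p.Prime := Fact.out
  have : NeZero p := ⟨hp.ne_zero⟩
  symm
  refine modularCyclotomicCharacter.unique (L := Qb) (card_rootsOfUnity_eq_self p)
    (complexConjugation : Qb ≃+* Qb) (c := -1) fun t ht => ?_
  have ht' : (t : Qb) ^ p = 1 := by
    have := (mem_rootsOfUnity p t).1 ht
    rw [← Units.val_pow_eq_pow_val, this, Units.val_one]
  have hval : (-1 : ZMod p).val = p - 1 := by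
    obtain ⟨m, rfl⟩ : ∃ m, p = m + 1 := ⟨p - 1, (Nat.succ_pred_eq_of_pos hp.pos).symm⟩
    rw [ZMod.val_neg_one]
    rfl
  show complexConjugation (t : Qb) = ((t ^ (-1 : ZMod p).val : Qbˣ) : Qb)
  rw [complexConjugation_root hp.ne_zero _ ht', hval, Units.val_pow_eq_pow_val]
  have h3 : (t : Qb) ^ (p - 1) * (t : Qb) = 1 := by
    rw [← pow_succ, Nat.sub_add_cancel hp.pos, ht']
  exact (eq_inv_of_mul_eq_one_left h3).symm

section LinAlg

variable {k : Type*} [Field k] {V : Type*} [AddCommGroup V] [Module k V] [FiniteDimensional k V]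

/-- For an involution `a` (`2` invertible): `dim {f ∈ V* | f ∘ a = -f} + dim ker (a - 1) = dim V`. -/
theorem finrank_neg_fixed_dual_add (h2 : (2 : k) ≠ 0) (a : V →ₗ[k] V) (ha : a ∘ₗ a = LinearMap.id)
    (W : Submodule k (Module.Dual k V)) (hW : ∀ f, f ∈ W ↔ f ∘ₗ a = -f) :
    finrank k W + finrank k (LinearMap.ker (a - 1)) = finrank k V := by
  have hker : LinearMap.ker (a - 1) = LinearMap.range (a + 1) := by
    ext x
    rw [LinearMap.mem_ker, LinearMap.sub_apply, Module.End.one_apply, sub_eq_zero]
    constructor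
    · intro hx
      refine ⟨(2 : k)⁻¹ • x, ?_⟩
      rw [LinearMap.add_apply, Module.End.one_apply, map_smul, hx, ← add_smul,
        ← two_mul, mul_inv_cancel₀ h2, one_smul]
    · rintro ⟨y, rfl⟩
      rw [LinearMap.add_apply, Module.End.one_apply, map_add]
      have : a (a y) = y := by
        have := congrArg (fun f => f y) ha
        simpa using this
      rw [this, add_comm]
  have hWann : W = (LinearMap.range (a + 1)).dualAnnihilator := by
    ext f
    rw [hW, Submodule.mem_dualAnnihilator]
    constructor
    · rintro hf _ ⟨y, rfl⟩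
      rw [LinearMap.add_apply, Module.End.one_apply, map_add]
      have := congrArg (fun g => g y) hf
      simp only [LinearMap.comp_apply, LinearMap.neg_apply] at this
      rw [this, neg_add_cancel]
    · intro hf
      apply LinearMap.ext
      intro y
      have := hf ((a + 1) y) ⟨y, rfl⟩
      rw [LinearMap.add_apply, Module.End.one_apply, map_add] at this
      rw [LinearMap.comp_apply, LinearMap.neg_apply]
      exact eq_neg_of_add_eq_zero_left this
  rw [hWann, hker, add_comm]
  exact Subspace.finrank_add_finrank_dualAnnihilator_eq _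

end LinAlg

/-- **(ARCH)** -/
theorem archOut : ArchOut := by
  intro p _ hp2 M M' _ ⟨e⟩
  have hp : p.Prime := Fact.out
  have h2 : (2 : ZMod p) ≠ 0 := by
    intro h
    have : ((2 : ℕ) : ZMod p) = 0 := by exact_mod_cast h
    rw [ZMod.natCast_eq_zero_iff] at this
    exact hp2 ((Nat.prime_dvd_prime_iff_eq hp Nat.prime_two).1 this)
  rw [hInf_congr e]
  set a : M →ₗ[ZMod p] M := M.ρ complexConjugation with ha
  have haa : a ∘ₗ a = LinearMap.id := by
    have : M.ρ complexConjugation * M.ρ complexConjugation = 1 := by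
      rw [← map_mul, complexConjugation_mul_self, map_one]
    exact this
  have key := finrank_neg_fixed_dual_add h2 a haa
    (LinearMap.ker ((M.dualTwist (cycloChar p)).ρ complexConjugation - 1)) (fun f => by
      rw [LinearMap.mem_ker, LinearMap.sub_apply, Module.End.one_apply, sub_eq_zero,
        Rep.dualTwist_ρ_apply, cycloChar_complexConjugation, complexConjugation_inv]
      have hneg : ((-1 : ZMod p) • (f ∘ₗ a) : Module.Dual (ZMod p) M) = -(f ∘ₗ a) := by
        apply LinearMap.ext
        intro x
        simp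
      show (-1 : ZMod p) • (f ∘ₗ a) = f ↔ f ∘ₗ a = -f
      rw [hneg]
      constructor
      · intro h
        exact neg_eq_iff_eq_neg.1 h
      · intro h
        rw [h, neg_neg])
  unfold hInf
  rw [add_comm]
  exact key

end Fermat.Agent.TW.Euler
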